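import Mathlib

/-!
# S55 G-N2-R: the elementary arithmetic at the end of the reciprocity argument
-/

set_option autoImplicit false

namespace Fermat.Agent.S55.G.N2

/-- a non-residue generates `(ℤ/r)ˣ` modulo `p`-th powers.
PROOF: `(ZMod r)ˣ` is cyclic of order `r - 1 = p m`; `P := range (powMonoidHom p)` has index `p`
(a generator `g`: `P = ⟨g^p⟩`), the quotient has prime order, so any `u ∉ P` generates it. -/
theorem exists_pow_mul_pow {p r : ℕ} [Fact p.Prime] [Fact r.Prime] (hr : r % p = 1)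
    (u : (ZMod r)ˣ) (hu : ¬ ∃ y : (ZMod r)ˣ, y ^ p = u) (c : (ZMod r)ˣ) :
    ∃ (k : ℕ) (y : (ZMod r)ˣ), c = u ^ k * y ^ p := by
  have hp : p.Prime := Fact.out
  obtain ⟨g, hg⟩ := IsCyclic.exists_generator (α := (ZMod r)ˣ)
  obtain ⟨a, rfl⟩ := Subgroup.mem_zpowers_iff.mp (hg u)
  obtain ⟨b, rfl⟩ := Subgroup.mem_zpowers_iff.mp (hg c)
  have hpa : ¬ (p : ℤ) ∣ a := by
    rintro ⟨a', rfl⟩
    exact hu ⟨g ^ a', by rw [← zpow_natCast, ← zpow_mul, mul_comm]⟩
  have hcop : IsCoprime (p : ℤ) a :=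
    (Nat.prime_iff_prime_int.mp hp).coprime_iff_not_dvd.mpr hpa
  obtain ⟨t, s, hst⟩ := hcop
  have hp0 : (0 : ℤ) < p := by exact_mod_cast hp.pos
  have hk0 : 0 ≤ (b * s) % p := Int.emod_nonneg _ hp0.ne'
  refine ⟨((b * s) % p).toNat, g ^ (a * ((b * s) / p) + b * t), ?_⟩
  rw [← zpow_natCast (g ^ a), Int.toNat_of_nonneg hk0, ← zpow_natCast (g ^ (a * ((b * s) / p) + b * t)),
    ← zpow_mul, ← zpow_mul, ← zpow_add]
  congr 1
  have h1 := Int.emod_add_mul_ediv (b * s) p
  linear_combination (-b) * hst + (-a) * h1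

theorem Arith_isPP_prod {p r : ℕ} {ι : Type*} (s : Finset ι) (f : ι → ZMod r)
    (h : ∀ i ∈ s, ∃ y : ZMod r, y ^ p = f i) : ∃ y : ZMod r, y ^ p = ∏ i ∈ s, f i := by
  refine Finset.prod_induction f (fun x => ∃ y : ZMod r, y ^ p = x) ?_ ⟨1, one_pow p⟩ h
  rintro _ _ ⟨y, rfl⟩ ⟨z, rfl⟩
  exact ⟨y * z, mul_pow y z p⟩

/-- **G-N2-R**.  PROOF.  `n' := n / r ^ v_r(n) = ∏_{q ≠ r} q ^ v_q(n)` (`Nat.factorization_prod_pow_eq_self`,
`Nat.ordCompl`, `Nat.factorization_ordCompl`).  In `G := (ZMod r)ˣ / (p-th powers)` (or: work with the predicate "is a `p`-th power in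
`ZMod r`", stable under products; nonzero `p`-th powers form a subgroup): every factor `q ^ v_q(n)`, `q ≠ l, r`, is a `p`-th power
(either `q` is one, or `p ∣ v_q(n)`), `n'` is one, so `l ^ v_l(n)` is one.  If `p ∤ v := v_l(n)`, Bézout
`a v = 1 + b p` gives that `l` is a `p`-th power (`l` is a unit mod `r`): contradiction. -/
theorem dvd_factorization_of_local {p r l n : ℕ} (hp : p.Prime) (hr : r.Prime) (hl : l.Prime)
    (hlr : l ≠ r) (hn : n ≠ 0)
    (hl' : ¬ ∃ y : ZMod r, y ^ p = (l : ZMod r))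
    (hq : ∀ q : ℕ, q.Prime → q ≠ l → q ≠ r → (¬ ∃ y : ZMod r, y ^ p = (q : ZMod r)) →
      p ∣ n.factorization q)
    (hrr : ∃ y : ZMod r, y ^ p = ((n / r ^ n.factorization r : ℕ) : ZMod r)) :
    p ∣ n.factorization l := by
  have : Fact r.Prime := ⟨hr⟩
  set n' : ℕ := n / r ^ n.factorization r with hn'
  have hn'0 : n' ≠ 0 := (Nat.ordCompl_pos r hn).ne'
  have hn'f : n'.factorization = n.factorization.erase r := Nat.factorization_ordCompl n r
  have hv : n'.factorization l = n.factorization l := by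
    rw [hn'f, Finsupp.erase_ne hlr]
  set m : ℕ := n' / l ^ n'.factorization l with hm
  have hm0 : m ≠ 0 := (Nat.ordCompl_pos l hn'0).ne'
  have hmf : m.factorization = (n.factorization.erase r).erase l := by
    rw [← hn'f]; exact Nat.factorization_ordCompl n' l
  have hn'm : l ^ n.factorization l * m = n' := by
    rw [← hv]; exact Nat.ordProj_mul_ordCompl_eq_self n' l
  -- `m` is a `p`-th power
  have hmPP : ∃ y : ZMod r, y ^ p = (m : ZMod r) := by
    have h1 : (m : ZMod r) = ∏ q ∈ m.factorization.support, ((q : ZMod r) ^ m.factorization q) := by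
      conv_lhs => rw [← Nat.prod_factorization_pow_eq_self hm0]
      rw [Finsupp.prod, Nat.cast_prod]
      exact Finset.prod_congr rfl fun q _ => Nat.cast_pow _ _
    rw [h1]
    refine Arith_isPP_prod _ _ fun q hqs => ?_
    have hqp : q.Prime := Nat.prime_of_mem_primeFactors (by simpa using hqs)
    have hq0 : m.factorization q ≠ 0 := Finsupp.mem_support_iff.mp hqs
    have hql : q ≠ l := by
      rintro rfl
      exact hq0 (by rw [hmf, Finsupp.erase_same])
    have hqr : q ≠ r := by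
      rintro rfl
      exact hq0 (by rw [hmf, Finsupp.erase_ne hql, Finsupp.erase_same])
    have hqf : m.factorization q = n.factorization q := by
      rw [hmf, Finsupp.erase_ne hql, Finsupp.erase_ne hqr]
    by_cases h : ∃ y : ZMod r, y ^ p = (q : ZMod r)
    · obtain ⟨y, hy⟩ := h
      exact ⟨y ^ m.factorization q, by rw [← hy, ← pow_mul, ← pow_mul, mul_comm]⟩
    · obtain ⟨t, ht⟩ := hq q hqp hql hqr h
      exact ⟨(q : ZMod r) ^ t, by rw [hqf, ht, ← pow_mul, mul_comm]⟩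
  -- `m` is a unit mod `r`
  have hmr : (m : ZMod r) ≠ 0 := by
    rw [Ne, ZMod.natCast_eq_zero_iff]
    intro h
    exact Nat.not_dvd_ordCompl hr hn (h.trans ⟨_, by rw [mul_comm]; exact hn'm.symm⟩)
  have hlr0 : (l : ZMod r) ≠ 0 := by
    rw [Ne, ZMod.natCast_eq_zero_iff]
    intro h
    exact hlr ((Nat.prime_dvd_prime_iff_eq hr hl).mp h).symm
  -- `l ^ v` is a `p`-th power
  obtain ⟨y, hy⟩ := hrr
  obtain ⟨z, hz⟩ := hmPP
  have hz0 : z ≠ 0 := by
    rintro rfl
    rw [zero_pow hp.ne_zero] at hz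
    exact hmr hz.symm
  have hlv : (y / z) ^ p = (l : ZMod r) ^ n.factorization l := by
    rw [div_pow, hy, hz, ← hn'm, Nat.cast_mul, Nat.cast_pow, mul_div_assoc, div_self hmr, mul_one]
  by_contra hpv
  have hcop : IsCoprime (p : ℤ) (n.factorization l : ℤ) :=
    (Nat.prime_iff_prime_int.mp hp).coprime_iff_not_dvd.mpr (by exact_mod_cast hpv)
  obtain ⟨b, a, hab⟩ := hcop
  apply hl'
  refine ⟨(l : ZMod r) ^ b * (y / z) ^ a, ?_⟩
  rw [mul_pow, ← zpow_natCast, ← zpow_natCast ((y / z) ^ a), ← zpow_mul, ← zpow_mul, mul_comm a,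
    zpow_mul (y / z), zpow_natCast (y / z), hlv, ← zpow_natCast, ← zpow_mul, ← zpow_add₀ hlr0,
    mul_comm (n.factorization l : ℤ), hab, zpow_one]

end Fermat.Agent.S55.G.N2
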