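import Fermat.Agent.S55.G.N2.AuxPrimeAn

/-!
# S55 G-N2-P2: the auxiliary prime `r ≡ 1 (mod p)` modulo which `l` is not a `p`-th power
-/

set_option autoImplicit false

namespace Fermat.Agent.S55.G.N2

open NumberField IsDedekindDomain

/-- a prime is not a `p`-th power in `ℚ`. -/
theorem AuxPrime_rat_pow_ne (p l : ℕ) (hp : p.Prime) (hl : l.Prime) (b : ℚ) : b ^ p ≠ (l : ℚ) := by
  intro h
  have : Fact l.Prime := ⟨hl⟩
  have h1 := congrArg (padicValRat l) h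
  rw [padicValRat.pow b, padicValRat.self hl.one_lt] at h1
  have h2 : (p : ℤ) ∣ 1 := ⟨_, h1.symm⟩
  have h3 : p ∣ 1 := by exact_mod_cast h2
  exact hp.one_lt.ne' (Nat.dvd_one.mp h3)

/-- a prime is not a `p`-th power in the `p`-th cyclotomic field. -/
theorem AuxPrime_cyclo_pow_ne (p l : ℕ) (hp : p.Prime) (hl : l.Prime)
    (x : CyclotomicField p ℚ) : x ^ p ≠ (l : CyclotomicField p ℚ) := by
  intro h
  have : NeZero p := ⟨hp.ne_zero⟩
  have hcyc : IsCyclotomicExtension {p} ℚ (CyclotomicField p ℚ) :=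
    CyclotomicField.isCyclotomicExtension p ℚ
  have hirr : Irreducible (Polynomial.X ^ p - Polynomial.C (l : ℚ)) :=
    X_pow_sub_C_irreducible_of_prime hp (AuxPrime_rat_pow_ne p l hp hl)
  have hmonic : (Polynomial.X ^ p - Polynomial.C (l : ℚ)).Monic :=
    Polynomial.monic_X_pow_sub_C _ hp.ne_zero
  have hroot : Polynomial.aeval x (Polynomial.X ^ p - Polynomial.C (l : ℚ)) = 0 := by
    simp [h]
  have hmin := minpoly.eq_of_irreducible_of_monic hirr hroot hmonic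
  have hdeg : (minpoly ℚ x).natDegree = p := by
    rw [← hmin, Polynomial.natDegree_X_pow_sub_C]
  have hle := minpoly.natDegree_le (A := ℚ) x
  rw [hdeg, IsCyclotomicExtension.finrank (n := p) (CyclotomicField p ℚ)
    (Polynomial.cyclotomic.irreducible_rat hp.pos), Nat.totient_prime hp] at hle
  have := hp.pos
  omega

theorem AuxPrime_core (p l : ℕ) (hp : p.Prime) (hp2 : p ≠ 2) (K : Type) [Field K] [NumberField K]
    [IsCyclotomicExtension {p} ℚ K] (hne : ∀ x : K, x ^ p ≠ (l : K)) :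
    ∃ r : ℕ, r.Prime ∧ r ≠ l ∧ r ≠ p ∧ r % p = 1 ∧ ¬ ∃ y : ZMod r, y ^ p = (l : ZMod r) := by
  classical
  have : Fact p.Prime := ⟨hp⟩
  have : NeZero p := ⟨hp.ne_zero⟩
  have hζ : IsPrimitiveRoot (IsCyclotomicExtension.zeta p ℚ K) p :=
    IsCyclotomicExtension.zeta_spec p ℚ K
  obtain ⟨v, hr, hrp, hv⟩ := exists_prime_nonresidue_two (K := K) hp2 hζ (l : 𝓞 K) (by
    rintro ⟨x, hx⟩
    refine hne x ?_
    rw [hx]
    simp)
  set r := Ideal.absNorm v.asIdeal with hrdef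
  have hrv : (r : 𝓞 K) ∈ v.asIdeal := Ideal.absNorm_mem v.asIdeal
  have hnon : ¬ ∃ y : ZMod r, y ^ p = (l : ZMod r) := by
    rintro ⟨y, hy⟩
    have : NeZero r := ⟨hr.ne_zero⟩
    apply hv
    refine ⟨(y.val : 𝓞 K), ?_⟩
    have h1 : (((l : ℤ) - (y.val : ℤ) ^ p : ℤ) : ZMod r) = 0 := by
      push_cast
      rw [ZMod.natCast_zmod_val, hy, sub_self]
    rw [ZMod.intCast_zmod_eq_zero_iff_dvd] at h1
    obtain ⟨c, hc⟩ := h1
    have h2 : (l : 𝓞 K) - (y.val : 𝓞 K) ^ p = (r : 𝓞 K) * (c : 𝓞 K) := by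
      have := congrArg (Int.cast : ℤ → 𝓞 K) hc
      push_cast at this
      exact this
    rw [h2]
    exact v.asIdeal.mul_mem_right _ hrv
  refine ⟨r, hr, ?_, hrp, ?_, hnon⟩
  · intro hrl
    apply hnon
    refine ⟨0, ?_⟩
    rw [zero_pow hp.ne_zero, ← hrl, ZMod.natCast_self]
  · -- `p ∣ r - 1`
    have hmax : v.asIdeal.IsMaximal := v.isMaximal
    let _ : Field (𝓞 K ⧸ v.asIdeal) := Ideal.Quotient.field v.asIdeal
    have hcard : Nat.card (𝓞 K ⧸ v.asIdeal) = r := rfl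
    have hfin : Finite (𝓞 K ⧸ v.asIdeal) := Nat.finite_of_card_ne_zero (by rw [hcard]; exact hr.ne_zero)
    let _ : Fintype (𝓞 K ⧸ v.asIdeal) := Fintype.ofFinite _
    have hcard' : Fintype.card (𝓞 K ⧸ v.asIdeal) = r := by
      rw [← Nat.card_eq_fintype_card, hcard]
    set z : 𝓞 K ⧸ v.asIdeal := Ideal.Quotient.mk v.asIdeal hζ.toInteger with hz
    have hzp : z ^ p = 1 := by
      rw [hz, ← map_pow]
      rw [hζ.toInteger_isPrimitiveRoot.pow_eq_one, map_one]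
    have hz1 : z ≠ 1 := by
      intro h1
      have h2 : hζ.toInteger - 1 ∈ v.asIdeal := by
        rw [← Ideal.Quotient.eq_zero_iff_mem, map_sub, map_one, ← hz, h1, sub_self]
      have h3 : (p : 𝓞 K) ∈ v.asIdeal :=
        Ideal.mem_of_dvd _ hζ.toInteger_sub_one_dvd_prime' h2
      have hcop : IsCoprime (p : ℤ) (r : ℤ) :=
        Nat.isCoprime_iff_coprime.mpr ((Nat.coprime_primes hp hr).mpr (Ne.symm hrp))
      obtain ⟨a, b, hab⟩ := hcop
      have h4 : (a : 𝓞 K) * (p : 𝓞 K) + (b : 𝓞 K) * (r : 𝓞 K) = 1 := by exact_mod_cast hab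
      apply v.isPrime.ne_top
      rw [Ideal.eq_top_iff_one, ← h4]
      exact v.asIdeal.add_mem (v.asIdeal.mul_mem_left _ h3) (v.asIdeal.mul_mem_left _ hrv)
    have hz0 : z ≠ 0 := by
      rintro h0
      rw [h0, zero_pow hp.ne_zero] at hzp
      exact zero_ne_one hzp
    have hord : orderOf z = p := orderOf_eq_prime hzp hz1
    have h5 : z ^ (r - 1) = 1 := by
      rw [← hcard']
      exact FiniteField.pow_card_sub_one_eq_one z hz0
    have h6 : p ∣ r - 1 := by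
      rw [← hord]
      exact orderOf_dvd_of_pow_eq_one h5
    obtain ⟨c, hc⟩ := h6
    have hr1 := hr.one_lt
    have h7 : r = 1 + p * c := by omega
    rw [h7, Nat.add_mul_mod_self_left, Nat.mod_eq_of_lt hp.one_lt]

/-- **G-N2-P2**.  PROOF.  `K := CyclotomicField p ℚ`, `ζ := IsCyclotomicExtension.zeta p ℚ K`, `η := (l : 𝓞 K)`.
(a) `l` is not a `p`-th power in `K`: `X ^ p - C (l : ℚ)` is irreducible over `ℚ`
(`X_pow_sub_C_irreducible_of_prime`: the prime `l` is not a `p`-th power in `ℚ`, e.g. by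
`padicValRat`/`Nat.Prime` + `Rat` num/den, or `irrational_nrt_of_notint_nrt`-like), so a root `x ∈ K` has
degree `p > p - 1 = [K : ℚ]` (`IsCyclotomicExtension.finrank`, `Nat.totient_prime`,
`minpoly.natDegree_le`).
(b) `exists_prime_nonresidue_two` gives `v`, `r := absNorm v` prime, `r ≠ p`.
(c) `(r : 𝓞 K) ∈ v` (`Ideal.absNorm_mem`).  If `y ^ p = l` in `ZMod r`, lift `y` to `n : ℕ`: `r ∣ l - n ^ p` in
`ℤ`, so `η - (n : 𝓞 K) ^ p ∈ v`: contradiction.  In particular `r ≠ l` (`y = 0`).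
(d) `p ∣ r - 1`: `k := 𝓞 K ⧸ v` is a field with `r` elements; the image `ζ̄` of `ζ` satisfies `ζ̄ ^ p = 1`,
`ζ̄ ≠ 1` (otherwise `1 - ζ ∈ v`, and `p = ∏_{0<i<p} (1 - ζ^i) ∈ v`
(`IsPrimitiveRoot`/`Polynomial.cyclotomic` evaluated at `1`: `Polynomial.eval_one_cyclotomic_prime`,
`IsPrimitiveRoot.sub_one_norm_prime` or `IsPrimitiveRoot.toInteger_sub_one_dvd_prime'`), so `p, r ∈ v` coprime:
`1 ∈ v`); so `orderOf ζ̄ = p` divides `|kˣ| = r - 1`. -/
theorem exists_aux_prime (p l : ℕ) (hp : p.Prime) (hp2 : p ≠ 2) (hl : l.Prime) :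
    ∃ r : ℕ, r.Prime ∧ r ≠ l ∧ r ≠ p ∧ r % p = 1 ∧ ¬ ∃ y : ZMod r, y ^ p = (l : ZMod r) := by
  have : NeZero p := ⟨hp.ne_zero⟩
  have hcyc : IsCyclotomicExtension {p} ℚ (CyclotomicField p ℚ) :=
    CyclotomicField.isCyclotomicExtension p ℚ
  exact AuxPrime_core p l hp hp2 (CyclotomicField p ℚ) (AuxPrime_cyclo_pow_ne p l hp hl)

end Fermat.Agent.S55.G.N2
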