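import Fermat.Agent.S14.An.Final

/-!
# S55 G-N2-P1: a prime of degree one at which `η` is not a `p`-th power residue (analytic)
-/

set_option autoImplicit false

namespace Fermat.Agent.S55.G.N2

open NumberField IsDedekindDomain Fermat.Agent.S14.An

/-- **G-N2-P1**.  PROOF: copy of `Fermat.Agent.S14.An.exists_prime_nonresidue_core`
(`S14/An/FinalCore.lean`, 80 lines) WITHOUT the character `lam`: if the statement fails, every `v` lies in
`A = {absNorm v not prime}` or `B = {η is a p-th power mod v}` (if `absNorm v = p` then `v ∈ B`, see the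
lemma just before the core); `fin_primeSum_univ_le_of_cover` (take `C := B` or `∅`), `log_idealZeta_le K`,
`idealZeta_bounds K`, `primeSum_not_prime_norm_le K`, `primeSum_residue_le hζ η hη`, `summable_nrm` give
`log (c / (s-1)) ≤ (1/p or 2/p) log (1/(s-1)) + C'` on `(1, 2]`; contradiction for `s → 1`
(with `C := ∅` the factor is `1/p < 1`; with `C := B` it is `2/p < 1` as `p ≠ 2`). -/
theorem exists_prime_nonresidue_two {K : Type*} [Field K] [NumberField K] {p : ℕ} [Fact p.Prime]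
    (hp : p ≠ 2) {ζ : K} (hζ : IsPrimitiveRoot ζ p) (η : 𝓞 K) (hη : ¬ ∃ x : K, x ^ p = (η : K)) :
    ∃ v : HeightOneSpectrum (𝓞 K), (Ideal.absNorm v.asIdeal).Prime ∧ Ideal.absNorm v.asIdeal ≠ p ∧
      ¬ ∃ z : 𝓞 K, η - z ^ p ∈ v.asIdeal := by
  by_contra hcon
  push Not at hcon
  obtain ⟨c, C', hc, _, hzeta⟩ := idealZeta_bounds K
  obtain ⟨C0, hlog⟩ := log_idealZeta_le K
  obtain ⟨C1, hdeg⟩ := primeSum_not_prime_norm_le K
  obtain ⟨C2, hres⟩ := primeSum_residue_le hζ η hη
  have hcover : ∀ v : HeightOneSpectrum (𝓞 K),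
      v ∈ {v : HeightOneSpectrum (𝓞 K) | ¬ (Ideal.absNorm v.asIdeal).Prime} ∨
      v ∈ {v : HeightOneSpectrum (𝓞 K) | ∃ z : 𝓞 K, η - z ^ p ∈ v.asIdeal} ∨
      v ∈ {v : HeightOneSpectrum (𝓞 K) | ∃ z : 𝓞 K, η - z ^ p ∈ v.asIdeal} := by
    intro v
    simp only [Set.mem_ofPred_eq]
    by_cases h1 : (Ideal.absNorm v.asIdeal).Prime
    · by_cases h2 : Ideal.absNorm v.asIdeal = p
      · exact Or.inr (Or.inl ⟨η, fin_sub_pow_mem_of_absNorm_eq v h2 η⟩)
      · exact Or.inr (Or.inl (hcon v h1 h2))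
    · exact Or.inl h1
  have hp3 : (3 : ℝ) ≤ p := by
    have h2 := (Fact.out : p.Prime).two_le
    have : 3 ≤ p := by omega
    exact_mod_cast this
  have hp0 : (0 : ℝ) < p := by linarith
  -- the key inequality
  have key : ∀ s : ℝ, 1 < s → s ≤ 2 →
      (1 - 2 / (p : ℝ)) * Real.log (1 / (s - 1)) ≤ C0 + C1 + C2 + C2 - Real.log c := by
    intro s hs hs2
    have hs0 : 0 < s - 1 := by linarith
    have h1 := (hzeta s hs hs2).1
    have h2 : Real.log (c / (s - 1)) ≤ Real.log (idealZeta K s) :=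
      Real.log_le_log (div_pos hc hs0) h1
    have h3 : Real.log (c / (s - 1)) = Real.log c + Real.log (1 / (s - 1)) := by
      rw [div_eq_mul_one_div, Real.log_mul hc.ne' (one_div_pos.mpr hs0).ne']
    have h4 := fin_primeSum_univ_le_of_cover (summable_nrm hs) _ _ _ hcover
    have h5 := hlog s hs hs2
    have h6 := hdeg s hs
    have h7 := hres s hs hs2
    have h9 : (1 - 2 / (p : ℝ)) * Real.log (1 / (s - 1)) =
        Real.log (1 / (s - 1)) - (1 / p : ℝ) * Real.log (1 / (s - 1))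
          - (1 / p : ℝ) * Real.log (1 / (s - 1)) := by ring
    rw [h9]
    linarith
  set M : ℝ := C0 + C1 + C2 + C2 - Real.log c with hM
  have hδ : (1 : ℝ) / 3 ≤ 1 - 2 / (p : ℝ) := by
    have : 2 / (p : ℝ) ≤ 2 / 3 := by
      apply div_le_div_of_nonneg_left (by norm_num) (by norm_num) hp3
    linarith
  set t : ℝ := 3 * |M| + 1 with ht
  have ht0 : 0 < t := by positivity
  have hs1 : 1 < 1 + Real.exp (-t) := by
    have := Real.exp_pos (-t)
    linarith
  have hs2 : 1 + Real.exp (-t) ≤ 2 := by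
    have : Real.exp (-t) ≤ 1 := Real.exp_le_one_iff.mpr (by linarith)
    linarith
  have h := key _ hs1 hs2
  have hlogt : Real.log (1 / (1 + Real.exp (-t) - 1)) = t := by
    rw [add_sub_cancel_left, one_div, ← Real.exp_neg, neg_neg, Real.log_exp]
  rw [hlogt] at h
  have h1 : (1 / 3 : ℝ) * t ≤ (1 - 2 / (p : ℝ)) * t := mul_le_mul_of_nonneg_right hδ ht0.le
  have h2 : M ≤ |M| := le_abs_self M
  rw [ht] at h h1
  linarith

end Fermat.Agent.S55.G.N2
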