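import Fermat.Agent.S55.G.N2.SplitIdx
import Fermat.Agent.S55.G.N2LKmu
import Fermat.Agent.S55.G.N2CycA

/-!
# S55 G-N2-B: from `H²(G_S, μ_p)` to cocycles `X = vz ζ x` in `ℚ̄ˣ` and back
-/

set_option autoImplicit false

namespace Fermat.Agent.S55.G.N2

open ExtCitation Fermat.Agent.S55.L.C0

local notation "Qbar" => AlgebraicClosure ℚ
local notation "GQ" => (AlgebraicClosure ℚ ≃ₐ[ℚ] AlgebraicClosure ℚ)

variable {p : ℕ} [Fact p.Prime] {S : Finset Nat.Primes}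

/-- an `S`-level cocycle is an all-level cocycle (`P.cont_levAll_levS S`: every `S`-level is a level) -/
theorem mem_Z2_levAll (x : ↥(Z2 (P.levS S) (F.mu (cycloChar p)))) :
    (x : GQ × GQ → ZMod p) ∈ Z2 P.levAll (F.mu (cycloChar p)) := by
  have hx := (mem_Z2_iff _ _ _).1 x.2
  rw [mem_Z2_iff]
  exact ⟨hx.1.precomp (P.cont_levAll_levS S), hx.2⟩

/-- **G-N2-B1**.  `PairHom.H2map_mk`, `H2π_eq_zero_iff`, `splitOn_iff_rs_mem_B2`
(the cochain `(x ∘ Prod.map subtype subtype)` is `rs D x` by `rfl`). -/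
theorem res_eq_zero_iff (x : ↥(Z2 (P.levS S) (F.mu (cycloChar p)))) (D : Subgroup GQ)
    (hc : Lev.Cont (P.levAll.sub D) (P.levS S) D.subtype) :
    (PairHom.res (F.mu (cycloChar p)) D.subtype hc).H2map
        (H2π (P.levS S) (F.mu (cycloChar p)) x) = 0 ↔
      SplitOn P.levAll (F.mu (cycloChar p)) D (x : GQ × GQ → ZMod p) := by
  rw [PairHom.H2map_mk, H2π_eq_zero_iff, splitOn_iff_rs_mem_B2]
  rfl

variable {ζ : Additive Qbarˣ}

theorem Bridge_smul_zeta (hζ : IsPrimitiveRoot ((Additive.toMul ζ : Qbarˣ) : Qbar) p) :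
    p • ζ = 0 := by
  have := (LK_zsmul_eq_zero_iff hζ (p : ℤ)).2 (by simp)
  simpa using this

/-- `g (ζ^i) = ζ^(ω(g) i)`: `L.c3_apply_of_pow_eq_one` / `n3_cycloChar_spec`;
`F.mu ω g i = (ω g : ZMod p) * i` (`rfl`-like, see `L.exists_isKummer_muQ`). -/
theorem unitsRep_vz (hζ : IsPrimitiveRoot ((Additive.toMul ζ : Qbarˣ) : Qbar) p) (g : GQ)
    (i : ZMod p) : unitsRep g (i.val • ζ) = (F.mu (cycloChar p) g i).val • ζ :=
  LKmu_unitsRep_val_smul (Bridge_smul_zeta hζ) g i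

/-- `i ↦ i.val • ζ` is additive -/
theorem val_smul_add (hζ : IsPrimitiveRoot ((Additive.toMul ζ : Qbarˣ) : Qbar) p) (i j : ZMod p) :
    (i + j).val • ζ = i.val • ζ + j.val • ζ :=
  (k2Iota ζ (Bridge_smul_zeta hζ)).map_add i j

theorem val_smul_neg (hζ : IsPrimitiveRoot ((Additive.toMul ζ : Qbarˣ) : Qbar) p) (i : ZMod p) :
    (-i).val • ζ = -(i.val • ζ) :=
  (k2Iota ζ (Bridge_smul_zeta hζ)).map_neg i

theorem Bridge_val_smul_sub (hζ : IsPrimitiveRoot ((Additive.toMul ζ : Qbarˣ) : Qbar) p)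
    (i j : ZMod p) : (i - j).val • ζ = i.val • ζ - j.val • ζ :=
  (k2Iota ζ (Bridge_smul_zeta hζ)).map_sub i j

/-- **G-N2-B2** -/
theorem vz_mem_Z2 (hζ : IsPrimitiveRoot ((Additive.toMul ζ : Qbarˣ) : Qbar) p)
    (x : ↥(Z2 (P.levS S) (F.mu (cycloChar p)))) :
    vz ζ (x : GQ × GQ → ZMod p) ∈ Z2 P.levAll unitsRep := by
  have hx := (mem_Z2_iff _ _ _).1 (mem_Z2_levAll x)
  rw [mem_Z2_iff]
  refine ⟨hx.1.comp (fun i : ZMod p => i.val • ζ), fun g h j => ?_⟩
  simp only [vz_apply]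
  rw [unitsRep_vz hζ, ← val_smul_add hζ, ← val_smul_add hζ, hx.2]

theorem smul_vz (hζ : IsPrimitiveRoot ((Additive.toMul ζ : Qbarˣ) : Qbar) p)
    (x : GQ × GQ → ZMod p) (t : GQ × GQ) : p • vz ζ x t = 0 := by
  rw [vz_apply, smul_comm, Bridge_smul_zeta hζ, smul_zero]

/-- **G-N2-B3**.  `x = d1 y` on `W` ⇒ `vz ζ x = d1 (vz ζ y)` on `W` (`unitsRep_vz`, `val_smul_add`,
`val_smul_neg`; `vz ζ y` is level: `IsLev₁.comp`). -/
theorem splitOn_units_of_mu (hζ : IsPrimitiveRoot ((Additive.toMul ζ : Qbarˣ) : Qbar) p)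
    {x : GQ × GQ → ZMod p} {W : Subgroup GQ} (h : SplitOn P.levAll (F.mu (cycloChar p)) W x) :
    SplitOn P.levAll unitsRep W (vz ζ x) := by
  obtain ⟨y, hy, hxy⟩ := h
  refine ⟨vz ζ y, hy.comp (fun i : ZMod p => i.val • ζ), fun u hu u' hu' => ?_⟩
  simp only [vz_apply]
  rw [unitsRep_vz hζ, ← Bridge_val_smul_sub hζ, ← val_smul_add hζ, hxy u hu u' hu']

/-- `ker ω` is open -/
theorem isOpen_ker_cycloChar (p : ℕ) [Fact p.Prime] : P.levAll.IsOpen (cycloChar p).ker := by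
  have hp : p.Prime := Fact.out
  obtain ⟨ζ, hζ⟩ := N2CycA.exists_primitiveRoot (r := p)
  have hint : IsIntegral ℚ ζ := (hζ.isIntegral hp.pos).tower_top
  refine ⟨(IntermediateField.adjoin ℚ {ζ}).fixingSubgroup,
    ⟨IntermediateField.adjoin ℚ {ζ}, IntermediateField.adjoin.finiteDimensional hint, rfl⟩, ?_⟩
  intro σ hσ
  refine N2CycA.mem_ker_cycloChar_of_apply σ hζ ?_
  exact (IntermediateField.mem_fixingSubgroup_iff _ _).1 hσ ζ
    (IntermediateField.mem_adjoin_simple_self ℚ ζ)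

/-- `[W : W ∩ ker ω]` divides `p - 1`: it is the order of the image of `W` in `(ZMod p)ˣ`
(`Subgroup.relIndex_ker`-like / `Subgroup.index_ker` for `(cycloChar p).comp W.subtype`, Lagrange,
`ZMod.card_units`). -/
theorem coprime_relIndex_ker (W : Subgroup GQ) :
    Nat.Coprime p ((W ⊓ (cycloChar p).ker).relIndex W) := by
  have hp : p.Prime := Fact.out
  rw [Subgroup.inf_relIndex_left, Subgroup.relIndex, ← MonoidHom.ker_domRestrict, Subgroup.index_ker]
  have h1 : Nat.card ((cycloChar p).domRestrict W).range ∣ p - 1 := by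
    have := Subgroup.card_subgroup_dvd_card ((cycloChar p).domRestrict W).range
    rwa [Nat.card_eq_fintype_card (α := (ZMod p)ˣ), ZMod.card_units] at this
  have h2 : Nat.Coprime p (p - 1) := by
    have := (Nat.coprime_self_sub_right (n := p) (m := 1) hp.one_lt.le).2 (Nat.coprime_one_right p)
    exact this
  exact Nat.Coprime.coprime_dvd_right h1 h2

/-- **G-N2-B4** (Kummer injectivity on an arbitrary subgroup, for a global cocycle).
PROOF.  `W₁ := W ⊓ ker ω`.  `SplitOn.mono` + `splitOn_triv_of_splitOn_units` give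
`SplitOn P.levAll (trivQ p) W₁ x`; on `W₁` the representations `trivQ p` and `F.mu ω` agree
(`ω u = 1`), so `SplitOn P.levAll (F.mu ω) W₁ x` with the same cochain.  Then `splitOn_of_coprime`
(`mem_Z2_levAll`; `p • x t = 0` in `ZMod p`; `F.mu ω` is discrete: fixed by the level inside `ker ω`;
`RelOpen`: `isOpen_ker_cycloChar`; `coprime_relIndex_ker`). -/
theorem splitOn_mu_of_units (hζ : IsPrimitiveRoot ((Additive.toMul ζ : Qbarˣ) : Qbar) p)
    (x : ↥(Z2 (P.levS S) (F.mu (cycloChar p)))) {W : Subgroup GQ}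
    (h : SplitOn P.levAll unitsRep W (vz ζ (x : GQ × GQ → ZMod p))) :
    SplitOn P.levAll (F.mu (cycloChar p)) W (x : GQ × GQ → ZMod p) :=
  LKmu_splitOn_mu_of_splitOn_units W hζ h

end Fermat.Agent.S55.G.N2
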