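import Fermat.Agent.S55.G.N2.Defs
import Fermat.Agent.S55.G.N2.Arith

/-!
# S55 G-N2-X: the auxiliary character `χ` (subfield of degree `p` of `ℚ(ζ_r)`)
-/

set_option autoImplicit false

namespace Fermat.Agent.S55.G.N2

open ExtCitation

local notation "Qbar" => AlgebraicClosure ℚ
local notation "GQ" => (AlgebraicClosure ℚ ≃ₐ[ℚ] AlgebraicClosure ℚ)

theorem Chi_exists_primitiveRoot (r : ℕ) [Fact r.Prime] : ∃ ζ : Qbar, IsPrimitiveRoot ζ r := by
  obtain ⟨ζ, hζ⟩ := exists_primitiveRoot_pow r 1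
  rw [pow_one] at hζ
  exact ⟨ζ, hζ⟩

/-- the value of `cycloChar r` is detected on one primitive root. -/
theorem Chi_cycloChar_eq (r : ℕ) [Fact r.Prime] (σ : GQ) (c : ℕ) {ζ : Qbar}
    (hζ : IsPrimitiveRoot ζ r) (h : σ ζ = ζ ^ c) :
    ((cycloChar r σ : (ZMod r)ˣ) : ZMod r) = c := by
  have hr : r.Prime := Fact.out
  have : NeZero r := ⟨hr.ne_zero⟩
  have h1 := n3_cycloChar_spec r σ hζ.pow_eq_one
  rw [h] at h1
  have hfin : IsOfFinOrder ζ :=
    isOfFinOrder_iff_pow_eq_one.mpr ⟨r, hr.pos, hζ.pow_eq_one⟩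
  have h2 := hfin.pow_eq_pow_iff_modEq.mp h1
  rw [← hζ.eq_orderOf] at h2
  have h3 := (ZMod.natCast_eq_natCast_iff _ _ _).mpr h2
  rw [h3, ZMod.natCast_val, ZMod.cast_id]

theorem Chi_mem_ker_cycloChar (r : ℕ) [Fact r.Prime] (σ : GQ) {ζ : Qbar}
    (hζ : IsPrimitiveRoot ζ r) : σ ∈ (cycloChar r).ker ↔ σ ζ = ζ := by
  have hr : r.Prime := Fact.out
  constructor
  · intro h
    have h1 := n3_cycloChar_spec r σ hζ.pow_eq_one
    have : Fact (1 < r) := ⟨hr.one_lt⟩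
    rwa [MonoidHom.mem_ker.1 h, Units.val_one, ZMod.val_one, pow_one] at h1
  · intro h
    rw [MonoidHom.mem_ker]
    apply Units.ext
    rw [Chi_cycloChar_eq r σ 1 hζ (by rw [pow_one, h])]
    simp

/-- Frobenius: for `q ≠ r` there is `d ∈ D_q` acting on `μ_r` by `ζ ↦ ζ^q`.
PROOF: `exists_local_frob r q hq 1` (`G/N3Cyc.lean`), `P.decGrp_eq_range` / `P.range_localGaloisToGlobal`;
compare `chiMod (chiP r) 1` and `cycloChar r` through their action on a primitive `r`-th root of unity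
(`n3_cycloChar_spec` and the spec of `chiMod` in `G/N3Cyc.lean`; `IsPrimitiveRoot.pow_inj`), or redo the proof of
`exists_local_frob` for `cycloChar r`. -/
theorem exists_frob (r q : ℕ) [Fact r.Prime] [Fact q.Prime] (hq : q ≠ r) :
    ∃ d ∈ (L.hens q).fixingSubgroup, ((cycloChar r d : (ZMod r)ˣ) : ZMod r) = q := by
  have hr : r.Prime := Fact.out
  have hq' : q.Prime := Fact.out
  obtain ⟨ζ, hζ⟩ := Chi_exists_primitiveRoot r
  have hμ : IsPrimitiveRoot (padicEmbedding q ζ) r :=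
    hζ.map_of_injective (n3_padicEmbedding_injective q)
  have hdiv : ¬ q ∣ r := fun hd => hq ((Nat.prime_dvd_prime_iff_eq hq' hr).1 hd)
  obtain ⟨σ, hσ⟩ := exists_frob_root hμ hdiv
  refine ⟨localGaloisToGlobal q σ, ?_, Chi_cycloChar_eq r _ q hζ ?_⟩
  · rw [← L.range_localGaloisToGlobal]
    exact ⟨σ, rfl⟩
  · apply n3_padicEmbedding_injective q
    rw [padicEmbedding_localGaloisToGlobal, hσ, map_pow]

/-- `D_r → (ℤ/r)ˣ` is onto (`exists_local_at_p r 1`). -/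
theorem exists_local_at_r (r : ℕ) [Fact r.Prime] (u : (ZMod r)ˣ) :
    ∃ d ∈ (L.hens r).fixingSubgroup, cycloChar r d = u := by
  have hr : r.Prime := Fact.out
  have : NeZero r := ⟨hr.ne_zero⟩
  obtain ⟨ζ, hζ⟩ := Chi_exists_primitiveRoot r
  have hμ : IsPrimitiveRoot (padicEmbedding r ζ) r :=
    hζ.map_of_injective (n3_padicEmbedding_injective r)
  have hcop : Nat.Coprime (u : ZMod r).val r := ZMod.val_coe_unit_coprime u
  have hμ1 : IsPrimitiveRoot (padicEmbedding r ζ) (r ^ 1) := by rwa [pow_one]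
  have hμ2 : IsPrimitiveRoot (padicEmbedding r ζ ^ (u : ZMod r).val) (r ^ 1) := by
    rw [pow_one]; exact hμ.pow_of_coprime _ hcop
  obtain ⟨σ, hσ⟩ := exists_aut_root hμ1 hμ2
  refine ⟨localGaloisToGlobal r σ, ?_, Units.ext ?_⟩
  · rw [← L.range_localGaloisToGlobal]
    exact ⟨σ, rfl⟩
  · rw [Chi_cycloChar_eq r _ (u : ZMod r).val hζ, ZMod.natCast_val, ZMod.cast_id]
    apply n3_padicEmbedding_injective r
    rw [padicEmbedding_localGaloisToGlobal, hσ, map_pow]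

/-- inertia at `q ≠ r` acts trivially on `μ_r` (`inertia_fixes_root`, `n3_cycloChar_spec`) -/
theorem Iq_le_ker_cycloChar (r q : ℕ) [Fact r.Prime] [Fact q.Prime] (hq : q ≠ r) :
    Iq q ≤ (cycloChar r).ker := by
  have hr : r.Prime := Fact.out
  have hq' : q.Prime := Fact.out
  intro σ hσ
  obtain ⟨ζ, hζ⟩ := Chi_exists_primitiveRoot r
  rw [Chi_mem_ker_cycloChar r σ hζ]
  exact inertia_fixes_root (padicPlace q) hq' (P.padicPlace_liesOverPrime q)
    (fun hd => hq ((Nat.prime_dvd_prime_iff_eq hq' hr).1 hd)) σ hσ hζ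

/-- `ker (cycloChar r) ⊇ Fix ℚ(ζ_r)`, and `ℚ(ζ_r)` is unramified outside `r`
(`P.isUnramifiedOutside_adjoin_rootOfUnity`). -/
theorem isOpen_ker_cycloChar_levS (r : ℕ) [Fact r.Prime] {S : Finset Nat.Primes}
    (hr : pPrime r ∈ S) : (P.levS S).IsOpen (cycloChar r).ker := by
  rw [isOpen_levS_iff]
  obtain ⟨F, hF, hle⟩ := isOpenS_ker_chiMod r hr 1
  refine ⟨F, hF, fun σ hσ => ?_⟩
  obtain ⟨ζ, hζ⟩ := exists_primitiveRoot_pow r 1
  have h1 := (mem_ker_chiMod_chiP r σ 1 hζ).1 (hle hσ)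
  rw [pow_one] at hζ
  exact (Chi_mem_ker_cycloChar r σ hζ).2 h1

variable {p r : ℕ} [Fact p.Prime] [Fact r.Prime]

/-- the character `(ℤ/r)ˣ → ℤ/p` with kernel the `p`-th powers -/
theorem Chi_exists_psi (hr : r % p = 1) : ∃ ψ : (ZMod r)ˣ →* Multiplicative (ZMod p),
    Function.Surjective ψ ∧ ∀ u, ψ u = 1 ↔ ∃ y : (ZMod r)ˣ, y ^ p = u := by
  have hp : p.Prime := Fact.out
  have hrp : r.Prime := Fact.out
  have hcard : Nat.card (ZMod r)ˣ = r - 1 := by
    rw [Nat.card_eq_fintype_card, ZMod.card_units]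
  have hdvd : p ∣ Nat.card (ZMod r)ˣ := by
    rw [hcard]
    exact (Nat.modEq_iff_dvd' hrp.one_lt.le).1 (by
      show 1 % p = r % p
      rw [hr, Nat.mod_eq_of_lt hp.one_lt])
  have hne : NeZero (Nat.card (ZMod r)ˣ) := ⟨Nat.card_pos.ne'⟩
  let e : Multiplicative (ZMod (Nat.card (ZMod r)ˣ)) ≃* (ZMod r)ˣ :=
    zmodCyclicMulEquiv (inferInstance : IsCyclic (ZMod r)ˣ)
  let c : Multiplicative (ZMod (Nat.card (ZMod r)ˣ)) →* Multiplicative (ZMod p) :=
    AddMonoidHom.toMultiplicative (ZMod.castHom hdvd (ZMod p)).toAddMonoidHom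
  have hc : ∀ k : ZMod (Nat.card (ZMod r)ˣ),
      c (Multiplicative.ofAdd k) = Multiplicative.ofAdd (ZMod.castHom hdvd (ZMod p) k) :=
    fun k => rfl
  refine ⟨c.comp e.symm.toMonoidHom, ?_, fun u => ?_⟩
  · intro z
    obtain ⟨k, hk⟩ := ZMod.castHom_surjective hdvd (Multiplicative.toAdd z)
    refine ⟨e (Multiplicative.ofAdd k), ?_⟩
    show c (e.symm (e (Multiplicative.ofAdd k))) = z
    rw [e.symm_apply_apply, hc, hk, ofAdd_toAdd]
  · show c (e.symm u) = 1 ↔ _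
    constructor
    · intro h
      set k : ZMod (Nat.card (ZMod r)ˣ) := Multiplicative.toAdd (e.symm u) with hk
      have h1 : ZMod.castHom hdvd (ZMod p) k = 0 := by
        have h2 : c (Multiplicative.ofAdd k) = 1 := by rw [hk, ofAdd_toAdd]; exact h
        rw [hc] at h2
        exact ofAdd_eq_one.1 h2
      rw [ZMod.castHom_apply, ← ZMod.natCast_val, ZMod.natCast_eq_zero_iff] at h1
      obtain ⟨j, hj⟩ := h1
      refine ⟨e (Multiplicative.ofAdd (j : ZMod (Nat.card (ZMod r)ˣ))), ?_⟩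
      rw [← map_pow, ← ofAdd_nsmul]
      have h3 : p • (j : ZMod (Nat.card (ZMod r)ˣ)) = k := by
        rw [nsmul_eq_mul, ← Nat.cast_mul, ← hj, ZMod.natCast_val, ZMod.cast_id]
      rw [h3, hk, ofAdd_toAdd, e.apply_symm_apply]
    · rintro ⟨y, rfl⟩
      rw [map_pow, map_pow]
      have : ∀ z : Multiplicative (ZMod p), z ^ p = 1 := by
        intro z
        apply Multiplicative.toAdd.injective
        rw [toAdd_pow, toAdd_one, nsmul_eq_mul, CharP.cast_eq_zero, zero_mul]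
      exact this _

/-- **G-N2-X1**.  PROOF: `P := range (powMonoidHom p) ≤ (ZMod r)ˣ` has index `p` (cyclic group of order
`r - 1`, `p ∣ r - 1`; see `exists_pow_mul_pow`), `(ZMod r)ˣ ⧸ P ≃* Multiplicative (ZMod p)`
(`mulEquivOfPrimeCardEq`), `χ := e ∘ mk' ∘ cycloChar r`; surjective since `cycloChar r` is
(`exists_local_at_r`). -/
theorem exists_isAuxChar (hr : r % p = 1) : ∃ χ : GQ →* Multiplicative (ZMod p), IsAuxChar p r χ := by
  obtain ⟨ψ, hψs, hψk⟩ := Chi_exists_psi (p := p) (r := r) hr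
  refine ⟨ψ.comp (cycloChar r), ⟨fun g => hψk _, fun z => ?_⟩⟩
  obtain ⟨u, rfl⟩ := hψs z
  obtain ⟨d, -, rfl⟩ := exists_local_at_r r u
  exact ⟨d, rfl⟩

variable {χ : GQ →* Multiplicative (ZMod p)}

theorem IsAuxChar.ker_cycloChar_le (h : IsAuxChar p r χ) : (cycloChar r).ker ≤ χ.ker := by
  intro g hg
  rw [MonoidHom.mem_ker, h.ker_iff]
  exact ⟨1, by rw [one_pow, MonoidHom.mem_ker.1 hg]⟩

theorem IsAuxChar.isOpen_levS (h : IsAuxChar p r χ) {S : Finset Nat.Primes} (hr : pPrime r ∈ S) :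
    (P.levS S).IsOpen χ.ker :=
  (isOpen_ker_cycloChar_levS r hr).mono h.ker_cycloChar_le

theorem IsAuxChar.isOpen_levAll (h : IsAuxChar p r χ) : P.levAll.IsOpen χ.ker := by
  obtain ⟨_, ⟨F, hF, rfl⟩, hle⟩ := h.isOpen_levS (S := {pPrime r}) (Finset.mem_singleton_self _)
  exact ⟨_, ⟨F, hF.1, rfl⟩, hle⟩

theorem IsAuxChar.Iq_le (h : IsAuxChar p r χ) {q : ℕ} [Fact q.Prime] (hq : q ≠ r) :
    Iq q ≤ χ.ker :=
  (Iq_le_ker_cycloChar r q hq).trans h.ker_cycloChar_le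

/-- if `q ≠ r` is not a `p`-th power mod `r` then `q` does not split: `exists_frob`, `h.ker_iff` -/
theorem IsAuxChar.not_le_of_not_isRes (h : IsAuxChar p r χ) {q : ℕ} [Fact q.Prime] (hq : q ≠ r)
    (hres : ¬ IsRes p r q) : ¬ (L.hens q).fixingSubgroup ≤ χ.ker := by
  intro hle
  obtain ⟨d, hd, hdq⟩ := exists_frob r q hq
  obtain ⟨y, hy⟩ := (h.ker_iff d).1 (hle hd)
  exact hres ⟨(y : ZMod r), by rw [← Units.val_pow_eq_pow_val, hy, hdq]⟩

/-- `χ` is nontrivial on `D_r`: `h.surj`, `exists_local_at_r`, `h.ker_iff` -/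
theorem IsAuxChar.not_le_self (h : IsAuxChar p r χ) : ¬ (L.hens r).fixingSubgroup ≤ χ.ker := by
  intro hle
  have hp : p.Prime := Fact.out
  have : Fact (1 < p) := ⟨hp.one_lt⟩
  obtain ⟨g, hg⟩ := h.surj (Multiplicative.ofAdd 1)
  obtain ⟨d, hd, hdg⟩ := exists_local_at_r r (cycloChar r g)
  obtain ⟨y, hy⟩ := (h.ker_iff d).1 (hle hd)
  have h1 : χ g = 1 := (h.ker_iff g).2 ⟨y, by rw [hy, hdg]⟩
  rw [hg] at h1
  exact one_ne_zero (ofAdd_eq_one.1 h1)

end Fermat.Agent.S55.G.N2
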