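import Fermat.Agent.S55.G.N2.SplitIdx

/-!
# S55 G-N2-C: `cyc χ a` splits on a subgroup `D` iff `a` is a norm from `D ∩ ker χ`
-/

set_option autoImplicit false

namespace Fermat.Agent.S55.G.N2

open ExtCitation Fermat.Agent.S55.L.C0

local notation "Qbar" => AlgebraicClosure ℚ
local notation "GQ" => (AlgebraicClosure ℚ ≃ₐ[ℚ] AlgebraicClosure ℚ)

variable {p : ℕ} [Fact p.Prime]

/-- **G-N2-C**.  PROOF.  Work on the group `↥D`, levels `P.levAll.sub D`, module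
`unitsRep.comp D.subtype`, character `χ' := χ.comp D.subtype`, `σ' := ⟨σ, hσD⟩`.
`splitOn_iff_rs_mem_B2 P.levAll unitsRep D (cyc χ a)` and `rs D (cyc χ a) = cyc χ' a` (`cyc_comp`, `rfl`).
(⇒) `exists_norm_of_cyc_mem_B2` (discreteness: `unitsRep_isDiscrete.comp (P.levAll.cont_comap _)`;
`H1VanishOn`: `h90_all D.subtype χ'.ker`, `P.levAll.sub D = P.levAll.comap D.subtype` by `rfl`).
(⇐) `cyc_mem_B2_of_norm` (`χ'.ker` is open: `Lev.IsOpen.comap`).
`v ∈ χ'.ker ↔ (v : GQ) ∈ D ⊓ χ.ker`;  `L.Nm_apply`. -/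
theorem splitOn_cyc_iff (χ : GQ →* Multiplicative (ZMod p)) (hχ : P.levAll.IsOpen χ.ker)
    (D : Subgroup GQ) {σ : GQ} (hσD : σ ∈ D) (hσ : χ σ = Multiplicative.ofAdd 1)
    {a : Additive Qbarˣ} (ha : ∀ g ∈ D, unitsRep g a = a) :
    SplitOn P.levAll unitsRep D (cyc χ a) ↔
      ∃ b ∈ L.AU unitsRep (D ⊓ χ.ker), L.Nm unitsRep σ p b = a := by
  have hcyc : rs D (cyc χ a) = cyc (χ.comp D.subtype) a := rfl
  have hσ' : (χ.comp D.subtype) ⟨σ, hσD⟩ = Multiplicative.ofAdd 1 := hσ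
  have hsum : ∀ b : Additive Qbarˣ, (∑ i ∈ Finset.range p,
      (unitsRep.comp D.subtype) ((⟨σ, hσD⟩ : D) ^ i) b) = L.Nm unitsRep σ p b := by
    intro b
    rw [L.Nm_apply]
    rfl
  rw [splitOn_iff_rs_mem_B2 P.levAll unitsRep D (cyc χ a), hcyc]
  constructor
  · intro h
    obtain ⟨b, hb, hab⟩ := exists_norm_of_cyc_mem_B2 (L := P.levAll.sub D)
      (ρ := unitsRep.comp D.subtype) (χ := χ.comp D.subtype)
      (unitsRep_isDiscrete.comp (P.levAll.cont_comap _)) (h90_all D.subtype _) hσ'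
      (fun g => ha g.1 g.2) h
    refine ⟨b, fun u hu => hb ⟨u, hu.1⟩ hu.2, ?_⟩
    rw [hab, hsum]
  · rintro ⟨b, hb, rfl⟩
    rw [← hsum]
    refine cyc_mem_B2_of_norm (L := P.levAll.sub D) (ρ := unitsRep.comp D.subtype)
      (χ := χ.comp D.subtype) ?_ hσ' b (fun v hv => hb v.1 ⟨v.2, hv⟩)
    exact hχ.comap (P.levAll.cont_comap D.subtype)

/-- a nontrivial homomorphism to `ℤ/p` is onto -/
theorem exists_eq_ofAdd_one {G : Type*} [Group G] (χ : G →* Multiplicative (ZMod p)) (D : Subgroup G)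
    (h : ¬ D ≤ χ.ker) : ∃ σ ∈ D, χ σ = Multiplicative.ofAdd 1 := by
  obtain ⟨g, hgD, hg⟩ := SetLike.not_le_iff_exists.1 h
  set c : ZMod p := Multiplicative.toAdd (χ g) with hc
  have hc0 : c ≠ 0 := by
    intro h0
    apply hg
    rw [MonoidHom.mem_ker, ← toAdd_eq_zero]
    exact h0
  refine ⟨g ^ (c⁻¹).val, D.pow_mem hgD _, ?_⟩
  rw [map_pow]
  apply Multiplicative.toAdd.injective
  rw [toAdd_pow, toAdd_ofAdd, ← hc, nsmul_eq_mul, ZMod.natCast_val, ZMod.cast_id', id_eq,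
    inv_mul_cancel₀ hc0]

/-- `D ∩ ker χ` is normal of index `p` in `D` -/
theorem normalIdx_inf_ker {Γ : Type} [Group Γ] (Lv : Lev Γ) (χ : Γ →* Multiplicative (ZMod p))
    (hχ : Lv.IsOpen χ.ker) (D : Subgroup Γ) (h : ¬ D ≤ χ.ker) :
    L.NormalIdx Lv p (D ⊓ χ.ker) D := by
  have hker : (D ⊓ χ.ker).subgroupOf D = (χ.comp D.subtype).ker := by
    rw [Subgroup.inf_subgroupOf_left]
    rfl
  refine ⟨inf_le_left, ?_, ?_, ?_⟩
  · obtain ⟨U, hU, hUk⟩ := hχ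
    exact ⟨U, hU, fun x hx => ⟨hx.2, hUk hx.1⟩⟩
  · rw [hker]
    exact MonoidHom.normal_ker _
  · obtain ⟨σ, hσD, hσ⟩ := exists_eq_ofAdd_one χ D h
    have hsurj : Function.Surjective (χ.comp D.subtype) := by
      intro y
      refine ⟨⟨σ, hσD⟩ ^ (Multiplicative.toAdd y).val, ?_⟩
      rw [map_pow]
      show (χ σ) ^ _ = y
      rw [hσ]
      apply Multiplicative.toAdd.injective
      rw [toAdd_pow, toAdd_ofAdd, nsmul_eq_mul, mul_one, ZMod.natCast_val, ZMod.cast_id', id_eq]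
    rw [Subgroup.relIndex, hker, Subgroup.index_ker, MonoidHom.range_eq_top.2 hsurj,
      Nat.card_congr Subgroup.topEquiv.toEquiv, Nat.card_congr Multiplicative.toAdd, Nat.card_zmod]

end Fermat.Agent.S55.G.N2
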