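import Fermat.Agent.S55.G.Sha2
import Fermat.Agent.S55.L.C3Final
import Fermat.Agent.S55.Fc.Conj

/-!
# S55 G-N2 (reciprocity, field `n2` of `CoreNumbers`): definitions

PLAN (see `N2/Main.lean`).  `x ∈ Z²(G_S, μ_p)`, `ζ` a primitive `p`-th root of unity, `X := vz ζ x`
(`= ζ ^ x`, a 2-cocycle of `G_ℚ` in `ℚ̄ˣ`), `l₀ ∈ S` the exceptional place.  Auxiliary prime `r ≡ 1 (p)`
such that `l₀` is not a `p`-th power mod `r`; `χ : G_ℚ → ℤ/p` the character of the subfield of degree
`p` of `ℚ(ζ_r)`.  `X` splits on `D_q` for all `q ≠ l₀` and on `D_{l₀} ∩ ker χ`; by the Hasse principle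
(`hp_main` for `S ∪ {r}`) `X ~ cyc χ n`, `n ∈ ℕ`; local conditions on `n` at all `q ≠ l₀` + elementary
arithmetic give `p ∣ v_{l₀}(n)`, so `cyc χ n` splits on `D_{l₀}`.

All `SplitOn` statements are about cochains on the AMBIENT group `GQ`, levels `P.levAll`, module
`unitsRep` (`= L.rhoQ`, by `rfl`).
-/

set_option autoImplicit false

noncomputable section

namespace Fermat.Agent.S55.G.N2

open ExtCitation

local notation "Qbar" => AlgebraicClosure ℚ
local notation "GQ" => (AlgebraicClosure ℚ ≃ₐ[ℚ] AlgebraicClosure ℚ)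

theorem unitsRep_eq_rhoQ : unitsRep = L.rhoQ := rfl

theorem Dq_eq (q : ℕ) [hq : Fact q.Prime] : Dq ⟨q, hq.out⟩ = (L.hens q).fixingSubgroup := rfl

open Classical in
/-- the natural number `n ≠ 0` as an element of `ℚ̄ˣ` (written additively); junk value `0` for `n = 0` -/
def natA (n : ℕ) : Additive Qbarˣ :=
  if h : n = 0 then 0 else Additive.ofMul (Units.mk0 (n : Qbar) (Nat.cast_ne_zero.2 h))

theorem coe_natA {n : ℕ} (hn : n ≠ 0) : ((Additive.toMul (natA n) : Qbarˣ) : Qbar) = n := by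
  rw [natA, dif_neg hn]; rfl

theorem natA_mul {m n : ℕ} (hm : m ≠ 0) (hn : n ≠ 0) : natA (m * n) = natA m + natA n := by
  apply Additive.toMul.injective
  apply Units.ext
  rw [coe_natA (Nat.mul_ne_zero hm hn), toMul_add, Units.val_mul, coe_natA hm, coe_natA hn]
  push_cast; ring

theorem natA_pow {m : ℕ} (hm : m ≠ 0) (k : ℕ) : natA (m ^ k) = k • natA m := by
  apply Additive.toMul.injective
  apply Units.ext
  rw [coe_natA (pow_ne_zero k hm), toMul_nsmul, Units.val_pow_eq_pow_val, coe_natA hm]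
  push_cast; ring

theorem unitsRep_natA (g : GQ) (n : ℕ) : unitsRep g (natA n) = natA n := by
  by_cases hn : n = 0
  · rw [natA, dif_pos hn, map_zero]
  · apply Additive.toMul.injective
    apply Units.ext
    rw [coe_toMul_unitsRep, coe_natA hn, map_natCast]

/-- the inertia group of the place `padicPlace q` -/
abbrev Iq (q : ℕ) [Fact q.Prime] : Subgroup GQ := (padicPlace q).inertiaSubgroupIn ℚ

/-- `c` is a `p`-th power residue mod `r` -/
def IsRes (p r c : ℕ) : Prop := ∃ y : ZMod r, y ^ p = (c : ZMod r)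

/-- `χ` is a character of `G_ℚ` with kernel `{g | cycloChar r g is a p-th power}`: the character of the
subfield of degree `p` of `ℚ(ζ_r)` -/
structure IsAuxChar (p r : ℕ) [Fact r.Prime] (χ : GQ →* Multiplicative (ZMod p)) : Prop where
  ker_iff : ∀ g, χ g = 1 ↔ ∃ y : (ZMod r)ˣ, y ^ p = cycloChar r g
  surj : Function.Surjective χ

end Fermat.Agent.S55.G.N2

end
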