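import Fermat.Agent.S55.G.N2.LcfAbs
import Fermat.Agent.S55.G.N2.Defs
import Fermat.Agent.S55.P.ValueGroup

/-!
# S55 G-N2-D: dictionary inertia group ↔ `L.UnrA`, the uniformiser `q` of `hens q`
-/

set_option autoImplicit false

namespace Fermat.Agent.S55.G.N2

open ExtCitation

local notation "Qbar" => AlgebraicClosure ℚ
local notation "GQ" => (AlgebraicClosure ℚ ≃ₐ[ℚ] AlgebraicClosure ℚ)

variable (q : ℕ) [Fact q.Prime]

theorem memQ_hens : L.memQ q (L.hens q).fixingSubgroup := ⟨L.hens q, L.isLocalFieldAt_hens q, rfl⟩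

/-- inertia ≤ decomposition group `= Fix (hens q)` (`P.fixingSubgroup_hens q`, `P.hens q = L.hens q` by
`rfl`; `inertiaSubgroupIn` is the image of a subgroup of the decomposition group). -/
theorem Iq_le_hens : Iq q ≤ (L.hens q).fixingSubgroup := by
  have h1 : (L.hens q).fixingSubgroup = (padicPlace q).decompositionSubgroup ℚ :=
    P.fixingSubgroup_hens q
  rw [h1]
  exact P.inertiaSubgroupIn_le_decompositionSubgroup _

/-- `a ∈ unitsQ q ↔ P.IsUnitAt (padicPlace q) a` -/
theorem mem_unitsQ_iff (a : Additive Qbarˣ) :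
    a ∈ L.unitsQ q ↔ P.IsUnitAt (padicPlace q) ((Additive.toMul a : Qbarˣ) : Qbar) := by
  rw [L.mem_unitsQ, ValuationSubring.mem_unitGroup_iff]
  set A := padicPlace q
  show A.valuation ((Additive.toMul a : Qbarˣ) : Qbar) = 1 ↔ _
  set x : Qbar := ((Additive.toMul a : Qbarˣ) : Qbar) with hx
  have hx0 : x ≠ 0 := Units.ne_zero _
  constructor
  · intro h
    refine ⟨(A.valuation_le_one_iff _).1 h.le, (A.valuation_le_one_iff _).1 ?_, hx0⟩
    rw [map_inv₀, h, inv_one]
  · rintro ⟨h1, h2, -⟩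
    have h1' := (A.valuation_le_one_iff _).2 h1
    have h2' := (A.valuation_le_one_iff _).2 h2
    have hv0 : A.valuation x ≠ 0 := (Valuation.ne_zero_iff _).2 hx0
    rw [map_inv₀, inv_le_one₀ (zero_lt_iff.2 hv0)] at h2'
    exact le_antisymm h1' h2'

theorem Dict_coe_sub_zsmul (a : Additive Qbarˣ) (n : ℤ) :
    ((Additive.toMul (a - n • natA q) : Qbarˣ) : Qbar) =
      ((Additive.toMul a : Qbarˣ) : Qbar) * (q : Qbar) ^ (-n) := by
  rw [toMul_sub, toMul_zsmul, div_eq_mul_inv, Units.val_mul, ← zpow_neg,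
    Units.val_zpow_eq_zpow_val, coe_natA (Fact.out : q.Prime).ne_zero]

theorem Dict_coe_zsmul (n : ℤ) :
    ((Additive.toMul (n • natA q) : Qbarˣ) : Qbar) = (q : Qbar) ^ n := by
  rw [toMul_zsmul, Units.val_zpow_eq_zpow_val, coe_natA (Fact.out : q.Prime).ne_zero]

/-- an integer prime to `q` is a unit at `padicPlace q` -/
theorem Dict_isUnitAt_natCast {n : ℕ} (hn : Nat.Coprime n q) :
    P.IsUnitAt (padicPlace q) (n : Qbar) := by
  set A := padicPlace q
  have hA : A.LiesOverPrime q := P.padicPlace_liesOverPrime q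
  have hcop : IsCoprime (n : ℤ) (q : ℤ) := Nat.isCoprime_iff_coprime.mpr hn
  obtain ⟨a, b, hab⟩ := hcop
  have hab' : (a : Qbar) * (n : Qbar) + (b : Qbar) * (q : Qbar) = 1 := by exact_mod_cast hab
  have hqv : A.valuation (q : Qbar) < 1 := (ValuationSubring.mem_nonunits_iff A).mp hA
  have hint : ∀ c : ℤ, A.valuation (c : Qbar) ≤ 1 := fun c =>
    (ValuationSubring.valuation_le_one_iff A _).mpr (intCast_mem A c)
  have hnv : A.valuation (n : Qbar) ≤ 1 := by simpa using hint n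
  have hn1 : A.valuation (n : Qbar) = 1 := by
    refine le_antisymm hnv (not_lt.1 fun hlt => ?_)
    have h1 : A.valuation ((a : Qbar) * (n : Qbar)) < 1 := by
      rw [map_mul]
      exact mul_lt_one_of_nonneg_of_lt_one_right (hint a) zero_le hlt
    have h2 : A.valuation ((b : Qbar) * (q : Qbar)) < 1 := by
      rw [map_mul]
      exact mul_lt_one_of_nonneg_of_lt_one_right (hint b) zero_le hqv
    have h3 := Valuation.map_add_lt A.valuation h1 h2
    rw [hab', map_one] at h3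
    exact lt_irrefl _ h3
  have hn0 : (n : Qbar) ≠ 0 := by
    intro h0
    rw [h0, map_zero] at hn1
    exact zero_ne_one hn1
  refine ⟨(A.valuation_le_one_iff _).1 hn1.le, (A.valuation_le_one_iff _).1 ?_, hn0⟩
  rw [map_inv₀, hn1, inv_one]

variable {q}

/-- **G-N2-D1**.  `q` is a uniformiser of every subgroup of `D_q` containing the inertia group.
PROOF.  `mem`: `unitsRep_natA`.  `span`: `a` is fixed by `D_q ⊓ W ⊇ Iq q` (`Iq_le_hens`), so
`P.exists_zpow_mul_isUnitAt (padicPlace q) _ (P.padicPlace_liesOverPrime q)` gives `n` with `a * q ^ (-n)` a unit.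
`free`: `P.zpow_isUnitAt_iff`. -/
theorem isUnifA_natA {W : Subgroup GQ} (hW : Iq q ≤ W) :
    L.IsUnifA L.rhoQ (L.unitsQ q) ((L.hens q).fixingSubgroup ⊓ W) (natA q) := by
  refine ⟨fun u _ => unitsRep_natA u q, fun a ha => ?_, fun n hn => ?_⟩
  · obtain ⟨n, hn⟩ := P.exists_zpow_mul_isUnitAt (padicPlace q) (Fact.out : q.Prime)
      (P.padicPlace_liesOverPrime q) (x := ((Additive.toMul a : Qbarˣ) : Qbar)) (Units.ne_zero _)
      (fun i hi => by
        have := ha i ⟨Iq_le_hens q hi, hW hi⟩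
        rw [← L.rhoQ_apply, this])
    refine ⟨n, ?_⟩
    rw [mem_unitsQ_iff, Dict_coe_sub_zsmul]
    exact hn
  · rw [mem_unitsQ_iff, Dict_coe_zsmul] at hn
    exact (P.zpow_isUnitAt_iff _ (P.padicPlace_liesOverPrime q) n).1 hn

theorem isUnifA_natA_hens : L.IsUnifA L.rhoQ (L.unitsQ q) (L.hens q).fixingSubgroup (natA q) := by
  have h := isUnifA_natA (q := q) (W := ⊤) le_top
  rwa [inf_top_eq] at h

/-- **G-N2-D2** (`unrA_of_isUnifA`) -/
theorem unrA_inf {W : Subgroup GQ} (hW : Iq q ≤ W) :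
    L.UnrA L.rhoQ (L.unitsQ q) ((L.hens q).fixingSubgroup ⊓ W) (L.hens q).fixingSubgroup :=
  unrA_of_isUnifA inf_le_left isUnifA_natA_hens (isUnifA_natA hW)

/-- **G-N2-D3**.  `n = q ^ v_q(n) * n'`, `q ∤ n'` (`Nat.ordProj_mul_ordCompl_eq_self`, `Nat.not_dvd_ordCompl`),
and an integer prime to `q` is a unit at `padicPlace q` (`P.isUnitAt_natCast`-like lemma in `P/`). -/
theorem natA_sub_mem_unitsQ {n : ℕ} (hn : n ≠ 0) :
    natA n - ((n.factorization q : ℕ) : ℤ) • natA q ∈ L.unitsQ q := by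
  have hq : q.Prime := Fact.out
  have hq0 : (q : Qbar) ≠ 0 := Nat.cast_ne_zero.2 hq.ne_zero
  rw [mem_unitsQ_iff, Dict_coe_sub_zsmul, coe_natA hn]
  have h1 : (n : Qbar) * (q : Qbar) ^ (-((n.factorization q : ℕ) : ℤ)) =
      ((n / q ^ n.factorization q : ℕ) : Qbar) := by
    have h2 := Nat.ordProj_mul_ordCompl_eq_self n q
    have h3 : (n : Qbar) = (q : Qbar) ^ n.factorization q * ((n / q ^ n.factorization q : ℕ) : Qbar) := by
      exact_mod_cast h2.symm
    rw [zpow_neg, zpow_natCast]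
    conv_lhs => rw [h3]
    field_simp
  rw [h1]
  exact Dict_isUnitAt_natCast q
    ((Nat.Coprime.symm ((Nat.Prime.coprime_iff_not_dvd hq).2 (Nat.not_dvd_ordCompl hq hn))))

end Fermat.Agent.S55.G.N2
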