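import Fermat.Agent.S55.G.N2.Defs

/-!
# S55 G-N2-S1: generic lemmas on `SplitOn` for GLOBAL cocycles on `GQ` and arbitrary subgroups
-/

set_option autoImplicit false

namespace Fermat.Agent.S55.G.N2

open ExtCitation Fermat.Agent.S55.L.C0

local notation "Qbar" => AlgebraicClosure ℚ
local notation "GQ" => (AlgebraicClosure ℚ ≃ₐ[ℚ] AlgebraicClosure ℚ)

variable {k : Type*} [CommRing k] {A : Type*} [AddCommGroup A] [Module k A]

/-- **G-N2-S1** (conjugation).  PROOF.  `PairHom.conj_H2map Lv ρ g` applied to `H2π Lv ρ Y`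
(`PairHom.H2map_mk`, `H2π_eq_iff` / `H2π_eq_zero_iff`, `mem_B2_iff`) gives a level cochain `t` with
`ρ g⁻¹ (Y (g a g⁻¹, g b g⁻¹)) - Y (a, b) = ρ a (t b) - t (a b) + t a` for ALL `a b`.
`Y = d1 y` on `W`.  Put `y' h := ρ g ((y + t) (g⁻¹ h g))`; it is level
(`IsLev₁.mul_left`, `IsLev₁.mul_right`, `IsLev₁.comp`, as in `Fc/Conj.lean`).  For `h = g u g⁻¹`,
`h' = g u' g⁻¹` (`mem_conjSub`): `ρ h (y' h') - y' (h h') + y' h = ρ g (d1 (y + t) (u, u')) = Y (h, h')`. -/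
theorem splitOn_conj (Lv : Lev GQ) (ρ : Representation k GQ A) (Y : ↥(Z2 Lv ρ)) (W : Subgroup GQ)
    (g : GQ) (h : SplitOn Lv ρ W (Y : GQ × GQ → A)) :
    SplitOn Lv ρ (conjSub W g) (Y : GQ × GQ → A) := by
  obtain ⟨y, hy, hxy⟩ := h
  have h1 := LinearMap.congr_fun (PairHom.conj_H2map Lv ρ g) (H2π Lv ρ Y)
  rw [PairHom.H2map_mk, LinearMap.id_apply, H2π_eq_iff] at h1
  obtain ⟨t, ht, hYt⟩ := h1
  have hYt' : ∀ a b, ρ g⁻¹ ((Y : GQ × GQ → A) (g * a * g⁻¹, g * b * g⁻¹))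
      - (Y : GQ × GQ → A) (a, b) = ρ a (t b) - t (a * b) + t a := hYt
  have h2 : IsLev₁ Lv (fun a => y a + t a) := hy.map₂ ht (· + ·)
  refine ⟨fun h => ρ g (y (g⁻¹ * h * g) + t (g⁻¹ * h * g)),
    ((h2.mul_right g).mul_left g⁻¹).comp (ρ g), ?_⟩
  intro u hu u' hu'
  rw [mem_conjSub] at hu hu'
  have e1 := hxy _ hu _ hu'
  have e2 := hYt' (g⁻¹ * u * g) (g⁻¹ * u' * g)
  rw [show g * (g⁻¹ * u * g) * g⁻¹ = u by group, show g * (g⁻¹ * u' * g) * g⁻¹ = u' by group,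
    e1] at e2
  have e3 : (Y : GQ × GQ → A) (u, u') = ρ g (ρ g⁻¹ ((Y : GQ × GQ → A) (u, u'))) := by
    rw [← Module.End.mul_apply, ← map_mul, mul_inv_cancel, map_one, Module.End.one_apply]
  have e4 : ρ g⁻¹ ((Y : GQ × GQ → A) (u, u'))
      = ρ (g⁻¹ * u * g) (y (g⁻¹ * u' * g) + t (g⁻¹ * u' * g))
        - (y (g⁻¹ * u * g * (g⁻¹ * u' * g)) + t (g⁻¹ * u * g * (g⁻¹ * u' * g)))
        + (y (g⁻¹ * u * g) + t (g⁻¹ * u * g)) := by
    rw [map_add]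
    rw [sub_eq_iff_eq_add] at e2
    rw [e2]
    abel
  have e5 : g⁻¹ * u * g * (g⁻¹ * u' * g) = g⁻¹ * (u * u') * g := by group
  have e6 : ∀ m, ρ g (ρ (g⁻¹ * u * g) m) = ρ u (ρ g m) := by
    intro m
    rw [← Module.End.mul_apply, ← map_mul, ← Module.End.mul_apply, ← map_mul]
    congr 2
    group
  rw [e3, e4, map_add, map_sub, e5, e6]

end Fermat.Agent.S55.G.N2
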