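import Fermat.Agent.S55.G.N2.Bridge
import Fermat.Agent.S55.G.N2.SplitConj
import Fermat.Agent.S55.G.N2.Chi

/-!
# S55 G-N2-G1: the Hasse principle: `X = vz ζ x` splits on `ker χ`
-/

set_option autoImplicit false

namespace Fermat.Agent.S55.G.N2

open ExtCitation Fermat.Agent.S55.L.C0

local notation "Qbar" => AlgebraicClosure ℚ
local notation "GQ" => (AlgebraicClosure ℚ ≃ₐ[ℚ] AlgebraicClosure ℚ)

variable {p : ℕ} [Fact p.Prime] {S S' : Finset Nat.Primes} {ζ : Additive Qbarˣ}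

/-- monotonicity of the levels: a field unramified outside `S` is unramified outside `S' ⊇ S` -/
theorem isLev₂_levS_mono (h : S ⊆ S') {Y : Type*} {x : GQ × GQ → Y} (hx : IsLev₂ (P.levS S) x) :
    IsLev₂ (P.levS S') x := by
  obtain ⟨_, ⟨F, hF, rfl⟩, hU⟩ := hx
  exact ⟨_, ⟨F, hF.mono h, rfl⟩, hU⟩

/-- **G-N2-G1**.  `χ` any character with `S'`-open kernel, `S ⊆ S'`.
PROOF.  `V := ker χ`, `V₁ := V ⊓ ker ω`, `S'`-open (`isOpen_ker_cycloChar_levS p`, `Lev.directed`), `V₁ ≤ ker ω`, both normal in `GQ`.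
`ζ ∈ KSx S'` (`mem_KSx_iff`: `ℚ(ζ)` is unramified outside `S' ∋ p`, `P.isUnramifiedOutside_adjoin_rootOfUnity`); `z := ⟨ζ, _⟩`, `IsZeta p z`.
`hp_main hp2 hpS' (U := V₁) .. (X := x)`:
* `IsLev₂ (P.levS S') x`: `isLev₂_levS_mono`, `Z2.isLev x`;
* `CocOn (trivQ p) V₁ x`: `Z2.cocycle x` and `F.mu ω g = id` for `g ∈ ker ω`;
* `LocTriv S' V₁ x`: for `q ∈ S'`, `g`: `splitOn_conj P.levAll unitsRep ⟨vz ζ x, vz_mem_Z2 hζ x⟩ (Dq q ⊓ V) g (hloc q hq)`;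
  `V₁ ⊓ conjSub (Dq q) g ≤ conjSub (Dq q ⊓ V) g` (`V` normal; `mem_conjSub`), `SplitOn.mono`;
  `splitOn_triv_of_splitOn_units` (the subgroup is `≤ ker ω`).
Result: `SplitOn (P.levS S') (unitsRepS S') V₁ (vz z x)`; `splitOn_units_of_splitOn_S` gives
`SplitOn P.levAll unitsRep V₁ (vz ζ x)`.  Finally `splitOn_of_coprime` from `V₁` to `V`
(`unitsRep_isDiscrete`, `smul_vz`, `RelOpen`: `isOpen_ker_cycloChar p`, `coprime_relIndex_ker V`). -/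
theorem splitOn_ker (hp2 : p ≠ 2) (hpS : pPrime p ∈ S) (hSS' : S ⊆ S')
    (hζ : IsPrimitiveRoot ((Additive.toMul ζ : Qbarˣ) : Qbar) p)
    (x : ↥(Z2 (P.levS S) (F.mu (cycloChar p)))) (χ : GQ →* Multiplicative (ZMod p))
    (hχ : (P.levS S').IsOpen χ.ker)
    (hloc : ∀ q ∈ S', SplitOn P.levAll unitsRep (Dq q ⊓ χ.ker) (vz ζ (x : GQ × GQ → ZMod p))) :
    SplitOn P.levAll unitsRep χ.ker (vz ζ (x : GQ × GQ → ZMod p)) := by
  have hp : p.Prime := Fact.out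
  have hpS' : pPrime p ∈ S' := hSS' hpS
  -- `V₁ = ker χ ⊓ ker ω`
  have hV₁open : (P.levS S').IsOpen (χ.ker ⊓ (cycloChar p).ker) := by
    obtain ⟨U, hU, hUle⟩ := hχ
    obtain ⟨U', hU', hU'le⟩ := isOpen_ker_cycloChar_levS p hpS'
    obtain ⟨W, hW, hWle⟩ := (P.levS S').directed U hU U' hU'
    exact ⟨W, hW, fun g hg => ⟨hUle (hWle hg).1, hU'le (hWle hg).2⟩⟩
  have hV₁ω : χ.ker ⊓ (cycloChar p).ker ≤ (cycloChar p).ker := inf_le_right
  -- `ζ ∈ 𝕂_{S'}ˣ`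
  have hζmem : ζ ∈ KSx S' := by
    rw [mem_KSx_iff]
    refine ⟨IntermediateField.adjoin ℚ {((Additive.toMul ζ : Qbarˣ) : Qbar)},
      P.isUnramifiedOutside_adjoin_rootOfUnity hp.pos ?_ hζ.pow_eq_one,
      IntermediateField.mem_adjoin_simple_self ℚ _⟩
    intro q hq
    have : q = pPrime p := Subtype.ext ((Nat.prime_dvd_prime_iff_eq q.2 hp).1 hq)
    rw [this]
    exact hpS'
  have hz : IsZeta p (⟨ζ, hζmem⟩ : KSx S') := hζ
  have hcoc : CocOn (trivQ p) (χ.ker ⊓ (cycloChar p).ker) (x : GQ × GQ → ZMod p) := by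
    intro g hg h _ j _
    have h1 := Z2.cocycle x g h j
    rw [F.mu_apply_apply, MonoidHom.mem_ker.1 hg.2, Units.val_one, one_mul] at h1
    exact h1
  have hlt : LocTriv S' (χ.ker ⊓ (cycloChar p).ker) (x : GQ × GQ → ZMod p) := by
    intro q hq g
    have h1 := splitOn_conj P.levAll unitsRep ⟨vz ζ (x : GQ × GQ → ZMod p), vz_mem_Z2 hζ x⟩
      (Dq q ⊓ χ.ker) g (hloc q hq)
    have hle : χ.ker ⊓ (cycloChar p).ker ⊓ conjSub (Dq q) g ≤ conjSub (Dq q ⊓ χ.ker) g := by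
      intro u hu
      rw [mem_conjSub]
      refine ⟨mem_conjSub.1 hu.2, ?_⟩
      have h2 : u ∈ χ.ker := hu.1.1
      have h3 := (MonoidHom.normal_ker χ).conj_mem u h2 g⁻¹
      rwa [inv_inv] at h3
    exact splitOn_triv_of_splitOn_units (inf_le_left.trans hV₁ω) hζ (h1.mono hle)
  have h1 := hp_main hp2 hpS' hV₁open hV₁ω (isLev₂_levS_mono hSS' (Z2.isLev x)) hcoc hlt hz
  have h2 : SplitOn P.levAll unitsRep (χ.ker ⊓ (cycloChar p).ker)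
      (vz ζ (x : GQ × GQ → ZMod p)) := splitOn_units_of_splitOn_S h1
  obtain ⟨W, hW, hWle⟩ := isOpen_ker_cycloChar p
  exact splitOn_of_coprime P.levAll unitsRep unitsRep_isDiscrete
    ⟨vz ζ (x : GQ × GQ → ZMod p), vz_mem_Z2 hζ x⟩ (smul_vz hζ _) inf_le_left
    ⟨W, hW, fun g hg => ⟨hg.2, hWle hg.1⟩⟩ (coprime_relIndex_ker χ.ker) h2

end Fermat.Agent.S55.G.N2
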