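import Fermat.Agent.S55.G.N2.SplitIdx

/-!
# S55 G-N2-G2: a global cocycle which splits on `ker χ` is cohomologous to `cyc χ n`, `n ∈ ℕ`
-/

set_option autoImplicit false

namespace Fermat.Agent.S55.G.N2

open ExtCitation Fermat.Agent.S55.L.C0

local notation "Qbar" => AlgebraicClosure ℚ
local notation "GQ" => (AlgebraicClosure ℚ ≃ₐ[ℚ] AlgebraicClosure ℚ)

variable {p : ℕ} [Fact p.Prime]

/-- every non-zero rational is a positive integer times a `p`-th power (`p` odd) -/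
theorem GlobalB_rat (hp2 : p ≠ 2) (t : ℚ) (ht : t ≠ 0) :
    ∃ (n : ℕ) (c : ℚ), n ≠ 0 ∧ c ≠ 0 ∧ t = n * c ^ p := by
  have hp : p.Prime := Fact.out
  have hodd : Odd p := hp.odd_of_ne_two hp2
  have hb : (t.den : ℚ) ≠ 0 := Nat.cast_ne_zero.2 t.den_ne_zero
  have hnum : t.num ≠ 0 := Rat.num_ne_zero.2 ht
  have hp1 : p - 1 + 1 = p := Nat.sub_add_cancel hp.one_le
  have ht' : t = (t.num : ℚ) / t.den := (Rat.num_div_den t).symm
  rcases lt_or_gt_of_ne hnum with hneg | hpos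
  · refine ⟨t.num.natAbs * t.den ^ (p - 1), -1 / t.den, ?_, ?_, ?_⟩
    · exact Nat.mul_ne_zero (Int.natAbs_ne_zero.2 hnum) (pow_ne_zero _ t.den_ne_zero)
    · exact div_ne_zero (by norm_num) hb
    · have h1 : ((t.num.natAbs : ℕ) : ℚ) = -(t.num : ℚ) := by
        have h0 : ((t.num.natAbs : ℕ) : ℤ) = -t.num := by
          rw [Int.natCast_natAbs, abs_of_neg hneg]
        have h2 := congrArg (Int.cast : ℤ → ℚ) h0
        rwa [Int.cast_natCast, Int.cast_neg] at h2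
      rw [div_pow, hodd.neg_one_pow]
      push_cast
      rw [h1]
      conv_lhs => rw [ht']
      conv_rhs => rw [← hp1, pow_succ]
      simp only [Nat.add_sub_cancel]
      field_simp
  · refine ⟨t.num.natAbs * t.den ^ (p - 1), 1 / t.den, ?_, ?_, ?_⟩
    · exact Nat.mul_ne_zero (Int.natAbs_ne_zero.2 hnum) (pow_ne_zero _ t.den_ne_zero)
    · exact div_ne_zero (by norm_num) hb
    · have h1 : ((t.num.natAbs : ℕ) : ℚ) = (t.num : ℚ) := by
        have h0 : ((t.num.natAbs : ℕ) : ℤ) = t.num := by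
          rw [Int.natCast_natAbs, abs_of_pos hpos]
        have h2 := congrArg (Int.cast : ℤ → ℚ) h0
        rwa [Int.cast_natCast] at h2
      rw [div_pow, one_pow]
      push_cast
      rw [h1]
      conv_lhs => rw [ht']
      conv_rhs => rw [← hp1, pow_succ]
      simp only [Nat.add_sub_cancel]
      field_simp

/-- the invariants of `ℚ̄ˣ` are `ℚˣ`; modulo `p`-th powers (`p` odd) every rational is a positive integer.
PROOF: `α` fixed by `GQ` ⇒ `(α : ℚ̄) = algebraMap ℚ ℚ̄ t` (`IsGalois`: `IsGalois.mem_bot_iff_fixed` /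
`InfiniteGalois.fixedField_bot`-like, `Fermat.Agent.Lib.FrobeniusExists.isGalois_algebraicClosure_rat`,
cf. `L.mem_AU_rhoQ ⊥`), `t ≠ 0`.  `t = ε a / b`, `a b : ℕ` positive, `ε = ± 1`.  `n := a * b ^ (p - 1)`,
`c := ε / b` : `t = n * c ^ p` as `ε ^ p = ε` (`p` odd: `Odd.neg_one_pow`, `Nat.Prime.odd_of_ne_two`). -/
theorem exists_natA_add_smul (hp2 : p ≠ 2) (α : Additive Qbarˣ) (hα : ∀ g : GQ, unitsRep g α = α) :
    ∃ (n : ℕ) (c : Additive Qbarˣ), n ≠ 0 ∧ (∀ g : GQ, unitsRep g c = c) ∧ α = natA n + p • c := by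
  have hgal : IsGalois ℚ Qbar := Fermat.Agent.Lib.FrobeniusExists.isGalois_algebraicClosure_rat
  have hfix : ∀ g : GQ, g ((Additive.toMul α : Qbarˣ) : Qbar) = ((Additive.toMul α : Qbarˣ) : Qbar) := by
    intro g
    rw [← coe_toMul_unitsRep, hα g]
  obtain ⟨t, ht⟩ := (InfiniteGalois.mem_range_algebraMap_iff_fixed _).2 hfix
  have ht0 : t ≠ 0 := by
    rintro rfl
    rw [map_zero] at ht
    exact (Additive.toMul α : Qbarˣ).ne_zero ht.symm
  obtain ⟨n, c, hn, hc, htnc⟩ := GlobalB_rat hp2 t ht0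
  have hc' : algebraMap ℚ Qbar c ≠ 0 := (map_ne_zero _).2 hc
  refine ⟨n, Additive.ofMul (Units.mk0 (algebraMap ℚ Qbar c) hc'), hn, fun g => ?_, ?_⟩
  · apply Additive.toMul.injective
    apply Units.ext
    rw [coe_toMul_unitsRep]
    exact g.commutes c
  · apply Additive.toMul.injective
    apply Units.ext
    rw [toMul_add, Units.val_mul, coe_natA hn, toMul_nsmul, Units.val_pow_eq_pow_val, ← ht, htnc]
    simp

/-- **G-N2-G2**.  PROOF.  `σ` with `χ σ = ofAdd 1` (`hsurj`).  `exists_cyc_of_splitOn unitsRep_isDiscrete hχ (h90_amb _) hσ Y h` gives an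
invariant `α` with `Y - cyc χ α ∈ B2`.  `α = natA n + p • c`; `cyc χ α = cyc χ (natA n) + cyc χ (p • c)` (`cyc_apply`, `smul_add`) and
`p • c = ∑ i < p, σ^i c`, so `cyc χ (p • c) ∈ B2` (`cyc_mem_B2_of_norm`).  `Submodule.add_mem`. -/
theorem exists_natA_of_splitOn (hp2 : p ≠ 2) (χ : GQ →* Multiplicative (ZMod p))
    (hχ : P.levAll.IsOpen χ.ker) (hsurj : Function.Surjective χ) (Y : ↥(Z2 P.levAll unitsRep))
    (h : SplitOn P.levAll unitsRep χ.ker (Y : GQ × GQ → Additive Qbarˣ)) :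
    ∃ n : ℕ, n ≠ 0 ∧ (Y : GQ × GQ → Additive Qbarˣ) - cyc χ (natA n) ∈ B2 P.levAll unitsRep := by
  obtain ⟨σ, hσ⟩ := hsurj (Multiplicative.ofAdd 1)
  obtain ⟨α, hα, hY⟩ := exists_cyc_of_splitOn unitsRep_isDiscrete hχ (h90_amb _) hσ Y h
  obtain ⟨n, c, hn, hc, rfl⟩ := exists_natA_add_smul hp2 α hα
  refine ⟨n, hn, ?_⟩
  have h1 : cyc χ (p • c) ∈ B2 P.levAll unitsRep := by
    have h2 := cyc_mem_B2_of_norm (L := P.levAll) (ρ := unitsRep) hχ hσ c (fun v _ => hc v)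
    have h3 : (∑ i ∈ Finset.range p, unitsRep (σ ^ i) c) = p • c := by
      rw [Finset.sum_congr rfl (fun i _ => hc (σ ^ i)), Finset.sum_const, Finset.card_range]
    rwa [h3] at h2
  have h4 : (Y : GQ × GQ → Additive Qbarˣ) - cyc χ (natA n)
      = ((Y : GQ × GQ → Additive Qbarˣ) - cyc χ (natA n + p • c)) + cyc χ (p • c) := by
    funext ⟨g, h⟩
    simp only [Pi.sub_apply, Pi.add_apply, cyc_apply]
    rw [nsmul_add]
    abel
  rw [h4]
  exact Submodule.add_mem _ hY h1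

end Fermat.Agent.S55.G.N2
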