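import Fermat.Agent.S55.L.C1LCF

/-!
# S55 G-N2-A: abstract lemmas on a local class formation `C : L.LCF Lv ρ p`:
norms from the unramified extension of degree `p`
-/

set_option autoImplicit false

namespace Fermat.Agent.S55.G.N2

open Fermat.Agent.S55.L

variable {Γ : Type} [Group Γ] {A : Type} [AddCommGroup A] {Lv : Lev Γ}
  {ρ : Representation ℤ Γ A} {p : ℕ}

/-- if ONE uniformiser of `U` stays a uniformiser of `V` then `V / U` is unramified.
PROOF: `π` another uniformiser of `U`: `π - n • π₀ ∈ units`, `π₀ - m • π ∈ units`, so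
`(1 - m n) • π₀ ∈ units`..., `m * n = 1`, `n = ± 1`; so `π₀ - n • π ∈ units`-like and
`a - k • π₀ ∈ units ⇒ a - (k * n) • π ∈ units`. -/
theorem unrA_of_isUnifA {units : AddSubgroup A} {U V : Subgroup Γ} (hVU : V ≤ U) {π₀ : A}
    (h : IsUnifA ρ units U π₀) (h' : IsUnifA ρ units V π₀) : UnrA ρ units V U := by
  intro π hπ
  refine ⟨AU_mono ρ hVU hπ.mem, fun a ha => ?_, hπ.free⟩
  obtain ⟨k, hk⟩ := h'.span a ha
  obtain ⟨m, hm⟩ := hπ.span π₀ h.mem
  refine ⟨k * m, ?_⟩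
  have e : a - (k * m) • π = (a - k • π₀) + k • (π₀ - m • π) := by
    rw [smul_sub, mul_smul]
    abel
  rw [e]
  exact units.add_mem hk (units.zsmul_mem hm k)

/-- `∑ s^i u ∈ units` -/
theorem Nm_mem_units (C : LCF Lv ρ p) {U : Subgroup Γ} (hU : C.mem U) {s : Γ} (hs : s ∈ U) {u : A}
    (hu : u ∈ C.units) (n : ℕ) : Nm ρ s n u ∈ C.units := by
  rw [Nm_apply]
  exact AddSubgroup.sum_mem _ fun i _ => C.units_stable hU (s ^ i) (pow_mem hs i) u hu

/-- the norm of a fixed element -/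
theorem LcfAbs_Nm_of_mem_AU {U : Subgroup Γ} {s : Γ} (hs : s ∈ U) {a : A} (ha : a ∈ AU ρ U)
    (n : ℕ) : Nm ρ s n a = n • a := by
  rw [Nm_apply, Finset.sum_congr rfl (fun i _ => ha (s ^ i) (pow_mem hs i)), Finset.sum_const,
    Finset.card_range]

/-- **G-N2-A1**: a norm from the unramified extension of degree `p` has valuation in `pℤ`.
PROOF: `π` is a uniformiser of `V` (`hur`): `b - m • π ∈ units`; `Nm π = p • π` (`π` is fixed by `s`);
`Nm b - (p * m) • π = Nm (b - m • π) ∈ units` (`Nm_mem_units`), so `(n - p * m) • π ∈ units`, `n = p * m`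
(`hπ.free`). -/
theorem dvd_of_norm (C : LCF Lv ρ p) {U V : Subgroup Γ} (hU : C.mem U)
    (hur : UnrA ρ C.units V U) {π : A} (hπ : IsUnifA ρ C.units U π) {s : Γ} (hs : s ∈ U) {b : A}
    (hb : b ∈ AU ρ V) {n : ℤ} (hn : Nm ρ s p b - n • π ∈ C.units) : (p : ℤ) ∣ n := by
  obtain ⟨m, hm⟩ := (hur π hπ).span b hb
  have h1 := Nm_mem_units C hU hs hm p
  rw [map_sub, map_zsmul, LcfAbs_Nm_of_mem_AU hs hπ.mem] at h1
  have h2 := C.units.sub_mem h1 hn
  have e : Nm ρ s p b - m • p • π - (Nm ρ s p b - n • π) = (n - m * p) • π := by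
    rw [sub_smul, mul_smul, natCast_zsmul]
    abel
  rw [e] at h2
  have h3 := hπ.free _ h2
  exact ⟨m, by linarith⟩

/-- **G-N2-A2**: conversely.  PROOF: `n = p * m`, `a = Nm (m • π) + u`, `u := a - n • π ∈ units ∩ A^U` is
a norm by `C.units_norm`. -/
theorem exists_norm_of_dvd (C : LCF Lv ρ p) {U V : Subgroup Γ} (hU : C.mem U)
    (hV : NormalIdx Lv p V U) (hur : UnrA ρ C.units V U) {π : A} (hπ : IsUnifA ρ C.units U π) {s : Γ}
    (hs : s ∈ U) (hs' : s ∉ V) {a : A} (ha : a ∈ AU ρ U) {n : ℤ} (hn : a - n • π ∈ C.units)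
    (hd : (p : ℤ) ∣ n) : ∃ b ∈ AU ρ V, Nm ρ s p b = a := by
  obtain ⟨m, rfl⟩ := hd
  have hu : a - ((p : ℤ) * m) • π ∈ AU ρ U := (AU ρ U).sub_mem ha ((AU ρ U).smul_mem _ hπ.mem)
  obtain ⟨y, hy, hNy⟩ := C.units_norm hU hV hur s hs hs' _ hu hn
  refine ⟨m • π + y, (AU ρ V).add_mem ((AU ρ V).smul_mem _ (AU_mono ρ hV.le hπ.mem)) hy, ?_⟩
  rw [map_add, map_zsmul, LcfAbs_Nm_of_mem_AU hs hπ.mem, hNy, mul_comm, mul_smul, natCast_zsmul]
  abel

/-- **G-N2-A3** (norm index trick).  `K` a subgroup of norms such that `A^U / K` is "generated by any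
element outside `K`".  Then every norm lies in `K`.
PROOF: if `a = Nm b ∉ K` then every `c ∈ A^U` is `k • a + (element of K)`, a norm
(`Nm` is additive); so `(AU ρ V).map (Nm ρ s p) ⊇ AU ρ U` and the `relIndex` in `C.norm_index` is `1`
(`AddSubgroup.relIndex_eq_one`), but `p ≠ 1`. -/
theorem mem_of_norm [Fact p.Prime] (C : LCF Lv ρ p) {U V : Subgroup Γ} (hU : C.mem U)
    (hV : NormalIdx Lv p V U) {s : Γ} (hs : s ∈ U) (hs' : s ∉ V) (K : AddSubgroup A)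
    (hK : ∀ c ∈ K, ∃ b ∈ AU ρ V, Nm ρ s p b = c)
    (hgen : ∀ a ∈ AU ρ U, a ∉ K → ∀ c ∈ AU ρ U, ∃ k : ℕ, c - k • a ∈ K)
    {b : A} (hb : b ∈ AU ρ V) (hNb : Nm ρ s p b ∈ AU ρ U) : Nm ρ s p b ∈ K := by
  by_contra hnot
  have h1 := C.norm_index hU hV s hs hs'
  have h2 : (((AU ρ V).map (Nm ρ s p)).toAddSubgroup).relIndex (AU ρ U).toAddSubgroup = 1 := by
    rw [AddSubgroup.relIndex_eq_one]
    intro c hc
    obtain ⟨k, hk⟩ := hgen _ hNb hnot c hc
    obtain ⟨b', hb', hNb'⟩ := hK _ hk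
    refine ⟨k • b + b', (AU ρ V).add_mem (nsmul_mem hb k) hb', ?_⟩
    rw [map_add, map_nsmul, hNb']
    abel
  rw [h2] at h1
  exact (Fact.out : p.Prime).one_lt.ne h1

end Fermat.Agent.S55.G.N2
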