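import Fermat.Agent.S55.G.N2.Chi

/-!
# S55 G-N2-RN: `r` is a norm from the subfield of degree `p` of `ℚ(ζ_r)`
-/

set_option autoImplicit false

namespace Fermat.Agent.S55.G.N2

open ExtCitation

local notation "Qbar" => AlgebraicClosure ℚ
local notation "GQ" => (AlgebraicClosure ℚ ≃ₐ[ℚ] AlgebraicClosure ℚ)

variable {p r : ℕ} [Fact p.Prime] [Fact r.Prime] {χ : GQ →* Multiplicative (ZMod p)}

/-- `∏_{c ∈ (ℤ/r)ˣ} F (c.val) = ∏_{k < r - 1} F (k + 1)` -/
theorem RNorm_prod_units {M : Type*} [CommMonoid M] (F : ℕ → M) :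
    ∏ c : (ZMod r)ˣ, F ((c : ZMod r).val) = ∏ k ∈ Finset.range (r - 1), F (k + 1) := by
  have hr : r.Prime := Fact.out
  have hpos : ∀ c : (ZMod r)ˣ, 0 < (c : ZMod r).val := fun c =>
    Nat.pos_of_ne_zero fun h0 => c.ne_zero ((ZMod.val_eq_zero _).1 h0)
  have hlt : ∀ c : (ZMod r)ˣ, (c : ZMod r).val < r := fun c => ZMod.val_lt _
  refine Finset.prod_bij (fun c _ => (c : ZMod r).val - 1) ?_ ?_ ?_ ?_
  · intro c _
    have := hpos c
    have := hlt c
    exact Finset.mem_range.2 (by omega)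
  · intro c _ c' _ hcc
    have h1 := hpos c
    have h2 := hpos c'
    have h3 : (c : ZMod r).val = (c' : ZMod r).val := by
      omega
    exact Units.ext (ZMod.val_injective r h3)
  · intro k hk
    have hk' : k + 1 < r := by
      have := Finset.mem_range.1 hk
      omega
    have hval : (((k + 1 : ℕ) : ZMod r)).val = k + 1 := ZMod.val_natCast_of_lt hk'
    have hne : ((k + 1 : ℕ) : ZMod r) ≠ 0 := by
      intro h0
      rw [h0, ZMod.val_zero] at hval
      omega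
    refine ⟨Units.mk0 _ hne, Finset.mem_univ _, ?_⟩
    simp only [Units.val_mk0, hval]
    omega
  · intro c _
    have := hpos c
    congr 1
    omega

/-- `∏_{c ∈ (ℤ/r)ˣ} (1 - ζ ^ c) = r` -/
theorem RNorm_prod_eq {ζ : Qbar} (hζ : IsPrimitiveRoot ζ r) :
    ∏ c : (ZMod r)ˣ, (1 - ζ ^ ((c : ZMod r).val)) = (r : Qbar) := by
  have hr : r.Prime := Fact.out
  rw [RNorm_prod_units (fun k => 1 - ζ ^ k)]
  obtain ⟨n, hn⟩ : ∃ n, r = n + 1 := ⟨r - 1, by have := hr.pos; omega⟩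
  subst hn
  rw [Nat.add_sub_cancel, hζ.prod_one_sub_pow_eq_order]
  push_cast
  ring

/-- the Galois action on the factors -/
theorem RNorm_apply_factor {ζ : Qbar} (hζ : IsPrimitiveRoot ζ r) (g : GQ) (c : (ZMod r)ˣ) :
    g (1 - ζ ^ ((c : ZMod r).val)) = 1 - ζ ^ (((cycloChar r g * c : (ZMod r)ˣ) : ZMod r).val) := by
  rw [map_sub, map_one, map_pow, n3_cycloChar_spec r g hζ.pow_eq_one, ← pow_mul, Units.val_mul,
    ZMod.val_mul, ← pow_eq_pow_mod _ hζ.pow_eq_one]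

theorem RNorm_factor_ne_zero {ζ : Qbar} (hζ : IsPrimitiveRoot ζ r) (c : (ZMod r)ˣ) :
    1 - ζ ^ ((c : ZMod r).val) ≠ 0 := by
  intro h0
  have h1 : ζ ^ ((c : ZMod r).val) = 1 := (sub_eq_zero.1 h0).symm
  have h2 := (hζ.pow_eq_one_iff_dvd _).1 h1
  have h3 : (c : ZMod r).val = 0 := Nat.eq_zero_of_dvd_of_lt h2 (ZMod.val_lt _)
  exact c.ne_zero ((ZMod.val_eq_zero _).1 h3)

/-- `χ` factors through `cycloChar r` -/
theorem IsAuxChar.RNorm_exists_kappa (h : IsAuxChar p r χ) :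
    ∃ κ : (ZMod r)ˣ → Multiplicative (ZMod p), ∀ g, κ (cycloChar r g) = χ g := by
  have hsurj : ∀ u : (ZMod r)ˣ, ∃ d : GQ, cycloChar r d = u := fun u => by
    obtain ⟨d, -, hd⟩ := exists_local_at_r r u
    exact ⟨d, hd⟩
  choose lift hlift using hsurj
  refine ⟨fun u => χ (lift u), fun g => ?_⟩
  have h1 : χ ((lift (cycloChar r g))⁻¹ * g) = 1 := by
    rw [h.ker_iff]
    exact ⟨1, by rw [one_pow, map_mul, map_inv, hlift, inv_mul_cancel]⟩
  rw [map_mul, map_inv, inv_mul_eq_one] at h1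
  exact h1

/-- **G-N2-RN**.  PROOF.  `ζ ∈ ℚ̄` a primitive `r`-th root of unity, `P ≤ (ZMod r)ˣ` the subgroup of `p`-th powers,
`β := ∏_{c ∈ P} (1 - ζ ^ (c : ZMod r).val) ≠ 0`, `b := ofMul (Units.mk0 β _)`.
For `g : GQ`, `u := cycloChar r g`: `g (ζ ^ c.val) = ζ ^ (u * c).val` (`n3_cycloChar_spec`, `ζ ^ r = 1`,
`ZMod.val_mul`, `pow_mod`-type lemma `IsPrimitiveRoot.pow_eq_pow_iff_modEq`/`pow_eq_pow_mod`), so
`g β = ∏_{c ∈ u P} (1 - ζ ^ c.val)`.  (i) `g ∈ ker χ ⇒ u ∈ P` (`h.ker_iff`) `⇒ g β = β`.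
(ii) with `s := cycloChar r σ`: the cosets `s ^ i P`, `i < p`, are pairwise disjoint and cover `(ZMod r)ˣ`
(for `c = cycloChar r g` (surjective: `exists_local_at_r`), `χ g = ofAdd j = χ (σ ^ j.val)`, so
`χ (σ^(-j) g) = 1`, `c ∈ s ^ j P`; disjoint: `χ (σ ^ (i - j)) = 1 ⇒ p ∣ i - j`).  So
`∏_{i<p} σ^i β = ∏_{c : (ZMod r)ˣ} (1 - ζ ^ c.val) = ∏_{0<j<r} (1 - ζ^j) = eval 1 (cyclotomic r) = r`
(`Polynomial.cyclotomic_prime`, `Polynomial.eval_one_cyclotomic_prime`,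
`Polynomial.cyclotomic_eq_prod_X_sub_primitiveRoots`, or `IsPrimitiveRoot` + `X^r - 1 = ∏ (X - ζ^j)`,
`Polynomial.X_pow_sub_one_eq_prod`, geometric sum). -/
theorem IsAuxChar.exists_norm_eq_r (h : IsAuxChar p r χ) {σ : GQ}
    (hσ : χ σ = Multiplicative.ofAdd 1) :
    ∃ b ∈ L.AU unitsRep χ.ker, L.Nm unitsRep σ p b = natA r := by
  classical
  have hp : p.Prime := Fact.out
  have hr : r.Prime := Fact.out
  have : NeZero p := ⟨hp.ne_zero⟩
  obtain ⟨ζ, hζ⟩ : ∃ ζ : Qbar, IsPrimitiveRoot ζ r :=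
    HasEnoughRootsOfUnity.exists_primitiveRoot Qbar r
  obtain ⟨κ, hκ⟩ := h.RNorm_exists_kappa
  have hsurj : ∀ u : (ZMod r)ˣ, ∃ d : GQ, cycloChar r d = u := fun u => by
    obtain ⟨d, -, hd⟩ := exists_local_at_r r u
    exact ⟨d, hd⟩
  have hκmul : ∀ (g : GQ) (c : (ZMod r)ˣ), κ (cycloChar r g * c) = χ g * κ c := by
    intro g c
    obtain ⟨d, rfl⟩ := hsurj c
    rw [← map_mul, hκ, hκ, map_mul]
  -- the partial products
  set B : Multiplicative (ZMod p) → Qbar := fun t =>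
    ∏ c ∈ Finset.univ.filter (fun c : (ZMod r)ˣ => κ c = t), (1 - ζ ^ ((c : ZMod r).val)) with hB
  have hBne : ∀ t, B t ≠ 0 := fun t =>
    Finset.prod_ne_zero_iff.2 fun c _ => RNorm_factor_ne_zero hζ c
  have hBact : ∀ (g : GQ) (t : Multiplicative (ZMod p)), g (B t) = B (χ g * t) := by
    intro g t
    simp only [hB]
    rw [map_prod]
    refine Finset.prod_equiv (Equiv.mulLeft (cycloChar r g)) (fun c => ?_) (fun c _ => ?_)
    · simp only [Finset.mem_filter, Finset.mem_univ, true_and, Equiv.coe_mulLeft, hκmul]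
      exact ⟨fun hc => by rw [hc], fun hc => mul_left_cancel hc⟩
    · exact RNorm_apply_factor hζ g c
  refine ⟨Additive.ofMul (Units.mk0 (B 1) (hBne 1)), fun u hu => ?_, ?_⟩
  · apply Additive.toMul.injective
    apply Units.ext
    rw [coe_toMul_unitsRep]
    show u (B 1) = B 1
    rw [hBact, MonoidHom.mem_ker.1 hu, one_mul]
  · apply Additive.toMul.injective
    apply Units.ext
    rw [L.Nm_apply, toMul_sum, Units.coe_prod, coe_natA hr.ne_zero]
    have h1 : ∀ i ∈ Finset.range p,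
        ((Additive.toMul (unitsRep (σ ^ i) (Additive.ofMul (Units.mk0 (B 1) (hBne 1)))) : Qbarˣ)
          : Qbar) = B (Multiplicative.ofAdd ((i : ℕ) : ZMod p)) := by
      intro i _
      rw [coe_toMul_unitsRep]
      show (σ ^ i) (B 1) = _
      rw [hBact, map_pow, hσ, mul_one, ← ofAdd_nsmul, nsmul_eq_mul, mul_one]
    rw [Finset.prod_congr rfl h1]
    have h2 : ∏ i ∈ Finset.range p, B (Multiplicative.ofAdd ((i : ℕ) : ZMod p))
        = ∏ t : Multiplicative (ZMod p), B t := by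
      refine Finset.prod_bij (fun i _ => Multiplicative.ofAdd ((i : ℕ) : ZMod p))
        (fun _ _ => Finset.mem_univ _) ?_ ?_ (fun _ _ => rfl)
      · intro i hi j hj hij
        have h3 : ((i : ℕ) : ZMod p) = ((j : ℕ) : ZMod p) := Multiplicative.ofAdd.injective hij
        rw [ZMod.natCast_eq_natCast_iff'] at h3
        rwa [Nat.mod_eq_of_lt (Finset.mem_range.1 hi), Nat.mod_eq_of_lt (Finset.mem_range.1 hj)]
          at h3
      · intro t _
        exact ⟨(Multiplicative.toAdd t).val, Finset.mem_range.2 (ZMod.val_lt _), by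
          rw [ZMod.natCast_zmod_val]; rfl⟩
    rw [h2]
    simp only [hB]
    rw [Finset.prod_fiberwise, RNorm_prod_eq hζ]

end Fermat.Agent.S55.G.N2
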