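import Fermat.Agent.S55.G.N2.LocRamAux
import Fermat.Agent.S55.G.N2.RNorm
import Fermat.Agent.S55.G.N2.CycNorm

/-!
# S55 G-N2-T: the local theory at the ramified prime `r`
-/

set_option autoImplicit false

namespace Fermat.Agent.S55.G.N2

open ExtCitation Fermat.Agent.S55.L.C0

local notation "Qbar" => AlgebraicClosure ℚ
local notation "GQ" => (AlgebraicClosure ℚ ≃ₐ[ℚ] AlgebraicClosure ℚ)

/-- the norm index is `p ≠ 1`: not everything is a norm (`C.norm_index`; if every `c ∈ AU ρ U` is a norm then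
`AU ρ U ≤ (AU ρ V).map (Nm ρ s p)` and the `relIndex` is `1`: `AddSubgroup.relIndex_eq_one`). -/
theorem exists_not_norm {Γ : Type} [Group Γ] {A : Type} [AddCommGroup A] {Lv : Lev Γ}
    {ρ : Representation ℤ Γ A} {p : ℕ} [Fact p.Prime] (C : L.LCF Lv ρ p) {U V : Subgroup Γ}
    (hU : C.mem U) (hV : L.NormalIdx Lv p V U) {s : Γ} (hs : s ∈ U) (hs' : s ∉ V) :
    ∃ c ∈ L.AU ρ U, ¬ ∃ b ∈ L.AU ρ V, L.Nm ρ s p b = c := by
  by_contra hcon
  push Not at hcon
  have h1 := C.norm_index hU hV s hs hs'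
  have h2 : (((L.AU ρ V).map (L.Nm ρ s p)).toAddSubgroup).relIndex (L.AU ρ U).toAddSubgroup
      = 1 := by
    rw [AddSubgroup.relIndex_eq_one]
    intro c hc
    obtain ⟨b, hb, hbc⟩ := hcon c hc
    exact ⟨b, hb, hbc⟩
  rw [h2] at h1
  exact (Fact.out : p.Prime).one_lt.ne h1

variable {p r : ℕ} [Fact p.Prime] [Fact r.Prime] {χ : GQ →* Multiplicative (ZMod p)}

/-- an integer prime to `r` has valuation `1` -/
private theorem LocRam_valuation_natCast {t : ℕ} (ht : ¬ r ∣ t) :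
    (padicPlace r).valuation ((t : ℕ) : Qbar) = 1 := by
  have h1 : (padicPlace r).valuation ((t : ℕ) : Qbar) ≤ 1 :=
    ((padicPlace r).valuation_le_one_iff _).2 (natCast_mem _ t)
  have h2 : ¬ (padicPlace r).valuation ((t : ℕ) : Qbar) < 1 := by
    intro h
    have h3 : (((t : ℕ) : ℤ) : Qbar) ∈ (padicPlace r).nonunits := by
      rw [ValuationSubring.mem_nonunits_iff]
      simpa using h
    rw [intCast_mem_nonunits_iff] at h3
    exact ht (Int.natCast_dvd_natCast.1 h3)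
  exact le_antisymm h1 (not_lt.1 h2)

private theorem LocRam_natA_mem_AU (U : Subgroup GQ) (t : ℕ) : natA t ∈ L.AU L.rhoQ U :=
  fun g _ => unitsRep_natA g t

omit [Fact r.Prime] in
private theorem LocRam_ne_zero {t : ℕ} (ht : ¬ r ∣ t) : t ≠ 0 := by
  rintro rfl
  exact ht (dvd_zero r)

/-- `u ≡ t (mod 𝔪)`, `r ∤ t` ⇒ `u / t` is a `p`-th power in `hens r` -/
private theorem LocRam_exists_smul_eq (hpr : p ≠ r) (u : Additive Qbarˣ)
    (hu : u ∈ L.AU L.rhoQ (L.hens r).fixingSubgroup) {t : ℕ} (ht : ¬ r ∣ t)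
    (h : ((Additive.toMul u : Qbarˣ) : Qbar) - (t : Qbar) ∈ (padicPlace r).nonunits) :
    ∃ y ∈ L.AU L.rhoQ (L.hens r).fixingSubgroup, u - natA t = p • y := by
  have ht0 : t ≠ 0 := LocRam_ne_zero ht
  have ht0' : (t : Qbar) ≠ 0 := Nat.cast_ne_zero.2 ht0
  have hmem : u - natA t ∈ L.AU L.rhoQ (L.hens r).fixingSubgroup :=
    Submodule.sub_mem _ hu (LocRam_natA_mem_AU _ t)
  have hval : ((Additive.toMul (u - natA t) : Qbarˣ) : Qbar) - 1
      = (((Additive.toMul u : Qbarˣ) : Qbar) - (t : Qbar)) / (t : Qbar) := by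
    rw [toMul_sub, Units.val_div_eq_div_val, coe_natA ht0]
    field_simp
  obtain ⟨y, hy, hyu⟩ := exists_smul_eq_of_principal hpr (u - natA t) hmem (by
    rw [hval, ValuationSubring.mem_nonunits_iff, map_div₀, LocRam_valuation_natCast ht, div_one]
    exact (ValuationSubring.mem_nonunits_iff _).1 h)
  exact ⟨y, hy, hyu.symm⟩

/-- every element of `(hens r)ˣ` is `r ^ m * t * y ^ p` with `t ∈ ℕ` prime to `r`.
PROOF: `isUnifA_natA_hens.span`: `u := c - m • natA r ∈ unitsQ r`, `u ∈ AU`; `exists_nat_sub_mem` gives `t` with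
`u - t ∈ 𝔪`; `r ∤ t` (else `u ∈ 𝔪`: `intCast_mem_nonunits_iff`; a unit is not in `nonunits`); `u / t - 1 = (u - t) / t ∈ 𝔪`
(`t` is a unit at `r`); `exists_smul_eq_of_principal`. -/
theorem exists_decomp (hpr : p ≠ r) (c : Additive Qbarˣ)
    (hc : c ∈ L.AU L.rhoQ (L.hens r).fixingSubgroup) :
    ∃ (m : ℤ) (t : ℕ), ¬ r ∣ t ∧ ∃ y ∈ L.AU L.rhoQ (L.hens r).fixingSubgroup,
      c = m • natA r + natA t + p • y := by
  obtain ⟨m, hm⟩ := (isUnifA_natA_hens (q := r)).span c hc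
  set u : Additive Qbarˣ := c - m • natA r with hu
  have huAU : u ∈ L.AU L.rhoQ (L.hens r).fixingSubgroup :=
    Submodule.sub_mem _ hc (Submodule.smul_mem _ _ (LocRam_natA_mem_AU _ r))
  have hu1 : (padicPlace r).valuation ((Additive.toMul u : Qbarˣ) : Qbar) = 1 :=
    (ValuationSubring.mem_unitGroup_iff _ _).1 ((L.mem_unitsQ r u).1 hm)
  obtain ⟨t, ht⟩ := exists_nat_sub_mem ((Additive.toMul u : Qbarˣ) : Qbar)
    ((L.mem_AU_rhoQ _ u).1 huAU) (((padicPlace r).valuation_le_one_iff _).1 hu1.le)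
  have hrt : ¬ r ∣ t := by
    intro hdvd
    have h3 : (((t : ℕ) : ℤ) : Qbar) ∈ (padicPlace r).nonunits :=
      (intCast_mem_nonunits_iff _).2 (Int.natCast_dvd_natCast.2 hdvd)
    rw [ValuationSubring.mem_nonunits_iff] at h3 ht
    have h4 : (padicPlace r).valuation ((Additive.toMul u : Qbarˣ) : Qbar) < 1 := by
      have : ((Additive.toMul u : Qbarˣ) : Qbar)
          = (((Additive.toMul u : Qbarˣ) : Qbar) - (t : Qbar)) + (((t : ℕ) : ℤ) : Qbar) := by
        push_cast; ring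
      rw [this]
      exact lt_of_le_of_lt (Valuation.map_add _ _ _) (max_lt ht h3)
    exact absurd hu1 h4.ne
  obtain ⟨y, hy, hyu⟩ := LocRam_exists_smul_eq hpr u huAU hrt ht
  refine ⟨m, t, hrt, y, hy, ?_⟩
  rw [← hyu, hu]
  abel

/-- `t ≡ t' (mod r)`, both prime to `r` ⇒ `t / t'` is a `p`-th power in `hens r` -/
theorem exists_smul_eq_natA_sub (hpr : p ≠ r) {t t' : ℕ} (ht : ¬ r ∣ t) (ht' : ¬ r ∣ t')
    (h : (t : ZMod r) = (t' : ZMod r)) :
    ∃ y ∈ L.AU L.rhoQ (L.hens r).fixingSubgroup, natA t - natA t' = p • y := by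
  refine LocRam_exists_smul_eq hpr (natA t) (LocRam_natA_mem_AU _ t) ht' ?_
  rw [coe_natA (LocRam_ne_zero ht)]
  have h1 : (r : ℤ) ∣ (t : ℤ) - (t' : ℤ) := by
    rw [← ZMod.intCast_zmod_eq_zero_iff_dvd]
    push_cast
    rw [h, sub_self]
  have h2 := (intCast_mem_nonunits_iff (r := r) _).2 h1
  simpa using h2

omit [Fact p.Prime] in
/-- `Nm y = p • y` for an invariant `y` -/
private theorem LocRam_Nm_of_mem {D : Subgroup GQ} {σ : GQ} (hσ : σ ∈ D) {y : Additive Qbarˣ}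
    (hy : y ∈ L.AU L.rhoQ D) : L.Nm L.rhoQ σ p y = p • y := by
  rw [L.Nm_apply, Finset.sum_congr rfl (fun i _ => hy (σ ^ i) (D.pow_mem hσ i)), Finset.sum_const,
    Finset.card_range]

/-- **G-N2-T**.  PROOF.  `D := Fix (hens r)`, `V := D ⊓ ker χ`, `C := L.lcfQ r p L.isGalLev_levAll`; `σ ∈ D` with
`χ σ = ofAdd 1` (`h.not_le_self`, `exists_eq_ofAdd_one`), `σ ∉ V`, `normalIdx_inf_ker`.
`splitOn_cyc_iff`: `natA n = Nm b₀`, `b₀ ∈ AU V`.  `n = r ^ v * n'`, `r ∤ n'`, `natA n = v • natA r + natA n'`.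
Assume `n'` is NOT a `p`-th power mod `r`.  CLAIM: every `c ∈ AU D` is a norm, contradicting `exists_not_norm`.
`c = m • natA r + natA t + p • y₁` (`exists_decomp`).  In `(ZMod r)ˣ` (`ZMod.unitOfCoprime`):
`t = n' ^ k * y ^ p` (`exists_pow_mul_pow hr`); `y₂ : ℕ` a lift of `y`; `t ≡ n' ^ k * y₂ ^ p (mod r)`, so
`natA t = k • natA n' + p • natA y₂ + p • y₃` (`exists_smul_eq_natA_sub`, `natA_mul`, `natA_pow`).  So
`c = (m - k v) • natA r + k • natA n + p • (y₁ + natA y₂ + y₃)`; `natA r = Nm b_r` (`h.exists_norm_eq_r hσ`,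
`AU_mono`), `p • y = Nm y` for `y ∈ AU D` (`σ ^ i ∈ D` fixes `y`), `Nm` is linear. -/
theorem IsAuxChar.isRes_of_splitOn (h : IsAuxChar p r χ) (hr : r % p = 1) {n : ℕ} (hn : n ≠ 0)
    (hs : SplitOn P.levAll unitsRep (L.hens r).fixingSubgroup (cyc χ (natA n))) :
    IsRes p r (n / r ^ n.factorization r) := by
  have hrp : r.Prime := Fact.out
  have hpr : p ≠ r := by
    rintro rfl
    rw [Nat.mod_self] at hr
    exact zero_ne_one hr
  obtain ⟨σ, hσD, hσ⟩ := exists_eq_ofAdd_one χ (L.hens r).fixingSubgroup h.not_le_self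
  obtain ⟨b₀, hb₀, hNb₀⟩ := (splitOn_cyc_iff χ h.isOpen_levAll (L.hens r).fixingSubgroup hσD hσ
    (fun g _ => unitsRep_natA g n)).1 hs
  obtain ⟨br, hbr, hNbr⟩ := h.exists_norm_eq_r hσ
  have hσV : σ ∉ (L.hens r).fixingSubgroup ⊓ χ.ker := by
    intro hmem
    have h1 : χ σ = 1 := hmem.2
    rw [hσ] at h1
    have h2 : (1 : ZMod p) = 0 := by
      have := congrArg Multiplicative.toAdd h1
      simp at this
    have : Fact (1 < p) := ⟨(Fact.out : p.Prime).one_lt⟩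
    exact one_ne_zero h2
  by_contra hres
  obtain ⟨c, hc, hcn⟩ := exists_not_norm (L.lcfQ r p L.isGalLev_levAll) (memQ_hens r)
    (normalIdx_inf_ker P.levAll χ h.isOpen_levAll (L.hens r).fixingSubgroup h.not_le_self)
    hσD hσV
  apply hcn
  set v := n.factorization r with hv
  set n' := n / r ^ v with hn'
  have hnn' : r ^ v * n' = n := Nat.ordProj_mul_ordCompl_eq_self n r
  have hrn' : ¬ r ∣ n' := Nat.not_dvd_ordCompl hrp hn
  have hn'0 : n' ≠ 0 := LocRam_ne_zero hrn'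
  have hnatn : natA n = v • natA r + natA n' := by
    rw [← hnn', natA_mul (pow_ne_zero _ hrp.ne_zero) hn'0, natA_pow hrp.ne_zero]
  obtain ⟨m, t, hrt, y₁, hy₁, hcy⟩ := exists_decomp hpr c hc
  have hcop : ∀ {a : ℕ}, ¬ r ∣ a → a.Coprime r := fun ha =>
    ((Nat.Prime.coprime_iff_not_dvd hrp).2 ha).symm
  have hu : ¬ ∃ y : (ZMod r)ˣ, y ^ p = ZMod.unitOfCoprime n' (hcop hrn') := by
    rintro ⟨y, hy⟩
    apply hres
    refine ⟨(y : ZMod r), ?_⟩
    have := congrArg (fun z : (ZMod r)ˣ => (z : ZMod r)) hy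
    simpa using this
  obtain ⟨k, y, hky⟩ := exists_pow_mul_pow hr (ZMod.unitOfCoprime n' (hcop hrn')) hu
    (ZMod.unitOfCoprime t (hcop hrt))
  set y₂ : ℕ := (y : ZMod r).val with hy₂
  have hy₂c : (y₂ : ZMod r) = (y : ZMod r) := ZMod.natCast_zmod_val _
  have hry₂ : ¬ r ∣ y₂ := by
    intro hd
    have h0 : (y₂ : ZMod r) = 0 := (ZMod.natCast_eq_zero_iff _ _).2 hd
    rw [hy₂c] at h0
    exact y.ne_zero h0
  have hy₂0 : y₂ ≠ 0 := LocRam_ne_zero hry₂
  have hcong : (t : ZMod r) = ((n' ^ k * y₂ ^ p : ℕ) : ZMod r) := by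
    have := congrArg (fun z : (ZMod r)ˣ => (z : ZMod r)) hky
    push_cast
    rw [hy₂c]
    simpa using this
  have hrprod : ¬ r ∣ n' ^ k * y₂ ^ p := by
    intro hd
    rcases (Nat.Prime.dvd_mul hrp).1 hd with h1 | h1
    · exact hrn' (hrp.dvd_of_dvd_pow h1)
    · exact hry₂ (hrp.dvd_of_dvd_pow h1)
  obtain ⟨y₃, hy₃, hty⟩ := exists_smul_eq_natA_sub hpr hrt hrprod hcong
  rw [natA_mul (pow_ne_zero _ hn'0) (pow_ne_zero _ hy₂0), natA_pow hn'0, natA_pow hy₂0] at hty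
  have hyAU : y₁ + natA y₂ + y₃ ∈ L.AU L.rhoQ (L.hens r).fixingSubgroup :=
    Submodule.add_mem _ (Submodule.add_mem _ hy₁ (LocRam_natA_mem_AU _ _)) hy₃
  refine ⟨(m - (k * v : ℕ)) • br + k • b₀ + (y₁ + natA y₂ + y₃), ?_, ?_⟩
  · refine Submodule.add_mem _ (Submodule.add_mem _ (Submodule.smul_mem _ _ ?_)
      (Submodule.smul_of_tower_mem _ _ hb₀)) (L.AU_mono _ inf_le_left hyAU)
    exact L.AU_mono _ inf_le_right hbr
  · have e1 : L.Nm L.rhoQ σ p br = natA r := hNbr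
    have e2 : L.Nm L.rhoQ σ p b₀ = natA n := hNb₀
    rw [map_add, map_add, map_smul, map_nsmul, e1, e2, LocRam_Nm_of_mem hσD hyAU, hcy, hnatn]
    have e3 : natA t = k • natA n' + p • natA y₂ + p • y₃ := by
      rw [← hty]; abel
    rw [e3, sub_smul, natCast_zsmul, mul_smul, nsmul_add, nsmul_add, nsmul_add]
    abel

end Fermat.Agent.S55.G.N2
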