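import Fermat.Agent.S55.G.N2.Dict

/-!
# S55 G-N2-T0: the residue field of `hens r` is `𝔽_r`; principal units are `p`-th powers
-/

set_option autoImplicit false

namespace Fermat.Agent.S55.G.N2

open ExtCitation

local notation "Qbar" => AlgebraicClosure ℚ
local notation "GQ" => (AlgebraicClosure ℚ ≃ₐ[ℚ] AlgebraicClosure ℚ)

variable {r : ℕ} [Fact r.Prime]

/-- PROOF: `L.mem_hens_iff`: `padicEmbedding r u = algebraMap y`, `y : ℚ_[r]`; `u ∈ padicPlace r ⇒ ‖y‖ ≤ 1`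
(`P.mem_padicPlace_iff_norm`, `P.norm_padicEmbedding_apply` in `P/HensDec.lean`, or the lemmas of
`L/B1Hens.lean`); `PadicInt.exists_mem_range` gives `t < r` with `‖y - t‖ < 1`; translate back
(`x ∈ A.nonunits ↔ A.valuation x < 1 ↔ x ∈ A ∧ x⁻¹ ∉ A`-type lemmas; norm `< 1`). -/
theorem exists_nat_sub_mem (u : Qbar) (hu : u ∈ L.hens r) (hu' : u ∈ padicPlace r) :
    ∃ t : ℕ, u - (t : Qbar) ∈ (padicPlace r).nonunits := by
  obtain ⟨n, hn⟩ := L.exists_nat_sub_mem_maximalIdeal_hens r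
    (⟨⟨u, hu⟩, (L.mem_OO_iff r _ _).mpr hu'⟩ : L.OO r (L.hens r))
  refine ⟨n, ?_⟩
  rw [L.mem_maximalIdeal_OO_iff] at hn
  rw [L.mem_nonunits_padicPlace_iff_norm]
  simpa using hn

theorem intCast_mem_nonunits_iff (n : ℤ) :
    ((n : ℤ) : Qbar) ∈ (padicPlace r).nonunits ↔ (r : ℤ) ∣ n := by
  rw [L.mem_nonunits_padicPlace_iff_norm, map_intCast]
  have h1 : ((n : ℤ) : PadicAlgCl r) = algebraMap ℚ_[r] (PadicAlgCl r) (n : ℚ_[r]) := by
    rw [map_intCast]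
  rw [h1, PadicAlgCl.norm_extends]
  exact Padic.norm_intCast_lt_one_iff

/-- Hensel.  PROOF: `F := L.hens r`, `O := L.OO r F`, `IsHLF O` (`(L.isLocalFieldAt_hens r).isHLF`), `p` is a unit of `O`
(`IsLocalFieldAt.isUnit_natCast`), `L.map_pow_higherUnits_one_of_isUnit`: every element of `higherUnits O 1` is a `p`-th
power of an element of `Fˣ`.  `u ∈ AU ↔ (u : ℚ̄) ∈ F` (`L.mem_AU_rhoQ`); `L.A3_mem_higherUnits_iff` /
`L.a2_higherUnits_one` (`= principalUnitGroup`), `L.C2c_j`, `L.C2c_exists_unit` for the passage `Fˣ ↔ ℚ̄ˣ`. -/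
theorem exists_smul_eq_of_principal {p : ℕ} [Fact p.Prime] (hpr : p ≠ r) (u : Additive Qbarˣ)
    (hu : u ∈ L.AU L.rhoQ (L.hens r).fixingSubgroup)
    (h1 : ((Additive.toMul u : Qbarˣ) : Qbar) - 1 ∈ (padicPlace r).nonunits) :
    ∃ y ∈ L.AU L.rhoQ (L.hens r).fixingSubgroup, p • y = u := by
  have hF := L.isLocalFieldAt_hens r
  have : L.IsHLF (L.OO r (L.hens r)) := hF.isHLF
  have hp : IsUnit (p : L.OO r (L.hens r)) := hF.isUnit_natCast Fact.out hpr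
  have huF : ((Additive.toMul u : Qbarˣ) : Qbar) ∈ L.hens r := (L.mem_AU_rhoQ _ u).mp hu
  obtain ⟨x, hx, hx'⟩ := L.C2c_exists_unit (L.hens r) (Additive.toMul u) huF
  have h1' : ‖padicEmbedding r (((Additive.toMul u : Qbarˣ) : Qbar) - 1)‖ < 1 :=
    (L.mem_nonunits_padicPlace_iff_norm r).mp h1
  have hmem : ((x : L.hens r) - 1) ∈ L.OO r (L.hens r) := by
    rw [L.mem_OO_iff, L.mem_padicPlace_iff_norm, hx']
    exact h1'.le
  have hxU : x ∈ L.higherUnits (L.OO r (L.hens r)) 1 := by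
    rw [L.A3_mem_higherUnits_iff _ le_rfl]
    refine ⟨⟨(x : L.hens r) - 1, hmem⟩, ?_, by simp⟩
    rw [pow_one, L.mem_maximalIdeal_OO_iff]
    show ‖padicEmbedding r (((x : L.hens r) - 1 : L.hens r) : Qbar)‖ < 1
    rw [hx']
    exact h1'
  rw [← L.map_pow_higherUnits_one_of_isUnit _ hp] at hxU
  obtain ⟨y, -, hy⟩ := hxU
  refine ⟨Additive.ofMul (L.C2c_j (L.hens r) y), L.C2c_ofMul_j_mem_AU _ y, ?_⟩
  have h2 : (L.C2c_j (L.hens r) y) ^ p = Additive.toMul u := by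
    rw [← map_pow, ← hx]
    exact congrArg _ hy
  rw [← ofMul_pow, h2]
  rfl

end Fermat.Agent.S55.G.N2
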