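import Fermat.Agent.S55.G.N2.Dict
import Fermat.Agent.S55.G.N2.CycNorm

/-!
# S55 G-N2-U: the local theory at a prime `q` where `χ` is unramified and nontrivial
-/

set_option autoImplicit false

namespace Fermat.Agent.S55.G.N2

open ExtCitation Fermat.Agent.S55.L.C0

local notation "Qbar" => AlgebraicClosure ℚ
local notation "GQ" => (AlgebraicClosure ℚ ≃ₐ[ℚ] AlgebraicClosure ℚ)

variable {p : ℕ} [Fact p.Prime] {q : ℕ} [Fact q.Prime]

/-- **G-N2-U1**: a `p`-torsion class dies in the unramified extension of degree `p`.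
PROOF.  `D := Fix (hens q)`, `V := D ⊓ ker χ`, `C := L.lcfQ q p L.isGalLev_levAll`.
`y := H2π (rs D Y) ∈ L.HH2 P.levAll L.rhoQ D` (`rs D Y ∈ Z2 (P.levAll.sub D) (L.rs L.rhoQ D)`: restriction of a
cocycle), `p • y = 0`.  `C.torsion_dies (memQ_hens q) (normalIdx_inf_ker ..) (unrA_inf hI) y _` gives
`L.rres2 .. y = 0`, i.e. (`PairHom.H2map_mk`, `H2π_eq_zero_iff`) `rs V Y ∈ B2 (P.levAll.sub V) _`; conclude by
`splitOn_iff_rs_mem_B2`. -/
theorem splitOn_inf_ker (χ : GQ →* Multiplicative (ZMod p)) (hχ : P.levAll.IsOpen χ.ker)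
    (hI : Iq q ≤ χ.ker) (hD : ¬ (L.hens q).fixingSubgroup ≤ χ.ker)
    (Y : ↥(Z2 P.levAll unitsRep)) (hpY : ∀ t, p • (Y : GQ × GQ → Additive Qbarˣ) t = 0) :
    SplitOn P.levAll unitsRep ((L.hens q).fixingSubgroup ⊓ χ.ker)
      (Y : GQ × GQ → Additive Qbarˣ) := by
  set D : Subgroup GQ := (L.hens q).fixingSubgroup with hDdef
  let C : L.LCF P.levAll L.rhoQ p := L.lcfQ q p L.isGalLev_levAll
  let α : PairHom P.levAll (P.levAll.sub D) unitsRep (unitsRep.comp D.subtype) :=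
    PairHom.res (LH := P.levAll.sub D) unitsRep D.subtype (P.levAll.cont_comap D.subtype)
  let yD : ↥(Z2 (P.levAll.sub D) (L.rs L.rhoQ D)) := α.Z2map Y
  have hpy : p • H2π (P.levAll.sub D) (L.rs L.rhoQ D) yD = 0 := by
    rw [← map_nsmul]
    have h0 : p • yD = 0 := by
      apply Subtype.ext
      funext t
      exact hpY (D.subtype t.1, D.subtype t.2)
    rw [h0, map_zero]
  have hV : L.NormalIdx P.levAll p (D ⊓ χ.ker) D := normalIdx_inf_ker P.levAll χ hχ D hD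
  have h1 := C.torsion_dies (memQ_hens q) hV (unrA_inf hI) _ hpy
  rw [PairHom.H2map_mk, H2π_eq_zero_iff] at h1
  rw [splitOn_iff_rs_mem_B2]
  exact h1

/-- **G-N2-U2**.  PROOF.  `σ ∈ D` with `χ σ = ofAdd 1` (`exists_eq_ofAdd_one`), `σ ∉ V`.
`splitOn_cyc_iff` (`unitsRep_natA`) reduces to: `natA n` is a norm from `V` iff `p ∣ v_q(n)`.
(⇒) `dvd_of_norm C (memQ_hens q) (unrA_inf hI) isUnifA_natA_hens` with `natA_sub_mem_unitsQ`;
(⇐) `exists_norm_of_dvd`.  (`Int.natCast_dvd_natCast`.) -/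
theorem splitOn_cyc_natA_iff (χ : GQ →* Multiplicative (ZMod p)) (hχ : P.levAll.IsOpen χ.ker)
    (hI : Iq q ≤ χ.ker) (hD : ¬ (L.hens q).fixingSubgroup ≤ χ.ker) {n : ℕ} (hn : n ≠ 0) :
    SplitOn P.levAll unitsRep (L.hens q).fixingSubgroup (cyc χ (natA n)) ↔
      p ∣ n.factorization q := by
  set D : Subgroup GQ := (L.hens q).fixingSubgroup with hDdef
  let C : L.LCF P.levAll L.rhoQ p := L.lcfQ q p L.isGalLev_levAll
  obtain ⟨σ, hσD, hσ⟩ := exists_eq_ofAdd_one χ D hD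
  have hσV : σ ∉ D ⊓ χ.ker := by
    rintro ⟨-, h⟩
    have h' : χ σ = 1 := MonoidHom.mem_ker.mp h
    rw [hσ] at h'
    have h1 : (1 : ZMod p) = 0 := Multiplicative.ofAdd.injective h'
    exact one_ne_zero h1
  have hV : L.NormalIdx P.levAll p (D ⊓ χ.ker) D := normalIdx_inf_ker P.levAll χ hχ D hD
  rw [splitOn_cyc_iff χ hχ D hσD hσ (a := natA n) (fun g _ => unitsRep_natA g n)]
  constructor
  · rintro ⟨b, hb, hNb⟩
    have h1 : (p : ℤ) ∣ ((n.factorization q : ℕ) : ℤ) :=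
      dvd_of_norm C (memQ_hens q) (unrA_inf hI) isUnifA_natA_hens hσD hb
        (by rw [show L.Nm L.rhoQ σ p b = natA n from hNb]; exact natA_sub_mem_unitsQ hn)
    exact Int.natCast_dvd_natCast.mp h1
  · intro hd
    exact exists_norm_of_dvd C (memQ_hens q) hV (unrA_inf hI) isUnifA_natA_hens hσD hσV
      (a := natA n) (fun g _ => unitsRep_natA g n) (natA_sub_mem_unitsQ hn)
      (Int.natCast_dvd_natCast.mpr hd)

end Fermat.Agent.S55.G.N2
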