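import Fermat.Agent.S55.G.N2.UcvAbs
import Fermat.Agent.S55.G.N2.Dict
import Fermat.Agent.S55.G.N2.Bridge

/-!
# S55 G-UCV-5: a class of `H²(G_S, μ_p)` is trivial at every `q ∉ S`
-/

set_option autoImplicit false

namespace Fermat.Agent.S55.G.N2

open ExtCitation Fermat.Agent.S55.L.C0

local notation "Qbar" => AlgebraicClosure ℚ
local notation "GQ" => (AlgebraicClosure ℚ ≃ₐ[ℚ] AlgebraicClosure ℚ)

variable {p : ℕ} [Fact p.Prime] {S : Finset Nat.Primes} {ζ : Additive Qbarˣ}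

/-- **G-UCV-5**.  PROOF.  `x` is invariant under an `S`-level `W₀` (`Z2.isLev x`); `ker ω` is `S`-open (`isOpen_ker_cycloChar_levS`-like:
`isOpenS_ker_chiMod`/`P.isUnramifiedOutside_adjoin_rootOfUnity`, `p ∈ S`); take a NORMAL `S`-level `W ≤ W₀ ⊓ ker ω`
(`Lev.directed`, `Lev.normal`).  `W = K.fixingSubgroup`, `K` unramified outside `S`, so `Iq q ≤ W`
(`hK.2 (pPrime q) hq (padicPlace q) (P.padicPlace_liesOverPrime q)`).  `D := Fix (hens q)`, `J := D ⊓ W`, `C := L.lcfQ q p L.isGalLev_levAll`.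
Apply `unram_class_eq_zero C (memQ_hens q)` to `X := rs D (vz ζ x) ∈ Z2 (P.levAll.sub D) (L.rs L.rhoQ D)` (restriction of
`vz_mem_Z2 hζ x`): `RelOpen`: `W` is a `P.levAll`-level (`hK.1`); normal: `W` is normal; `unrA_inf`; `hval`: `i • ζ` is a root of unity, so
a unit at every place (`mem_unitsQ_iff`; integral over `ℤ`, or `ValuationSubring` is integrally closed: see `n3_mem_of_pow_eq_one` in
`G/N3Cyc.lean`); `hfix`: `W ≤ ker ω` fixes `ζ` (`unitsRep_vz`); `hinv`: invariance of `x`; `hpX`: `smul_vz`.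
Conclusion `rs D (vz ζ x) ∈ B2` (`H2π_eq_zero_iff`) and `splitOn_iff_rs_mem_B2`. -/
theorem splitOn_of_not_mem (hpS : pPrime p ∈ S)
    (hζ : IsPrimitiveRoot ((Additive.toMul ζ : Qbarˣ) : Qbar) p)
    (x : ↥(Z2 (P.levS S) (F.mu (cycloChar p)))) (q : ℕ) [Fact q.Prime] (hq : pPrime q ∉ S) :
    SplitOn P.levAll unitsRep (L.hens q).fixingSubgroup (vz ζ (x : GQ × GQ → ZMod p)) := by
  sorry

end Fermat.Agent.S55.G.N2
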