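import Fermat.Agent.S55.G.N2.GlobalA
import Fermat.Agent.S55.G.N2.GlobalB
import Fermat.Agent.S55.G.N2.Ucv
import Fermat.Agent.S55.G.N2.LocUnr
import Fermat.Agent.S55.G.N2.LocRam
import Fermat.Agent.S55.G.N2.AuxPrime

/-!
# S55 G-N2: the field `n2` of `(sys S).CoreNumbers (cycloChar p) (dl p S)` (assembly)
-/

set_option autoImplicit false

namespace Fermat.Agent.S55.G

open ExtCitation Fermat.Agent.S55.L.C0 Fermat.Agent.S55.G.N2

local notation "Qbar" => AlgebraicClosure ℚ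
local notation "GQ" => (AlgebraicClosure ℚ ≃ₐ[ℚ] AlgebraicClosure ℚ)

variable {p : ℕ} [Fact p.Prime] {S : Finset Nat.Primes}

/-- cocycle form of (N2) -/
theorem N2.n2_cocycle (hp2 : p ≠ 2) (hpS : pPrime p ∈ S)
    (x : ↥(Z2 (P.levS S) (F.mu (cycloChar p)))) (v : Nat.Primes)
    (h : ∀ w ∈ S, w ≠ v → SplitOn P.levAll (F.mu (cycloChar p)) (Dq w) (x : GQ × GQ → ZMod p)) :
    SplitOn P.levAll (F.mu (cycloChar p)) (Dq v) (x : GQ × GQ → ZMod p) := by
  have hp : p.Prime := Fact.out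
  obtain ⟨l, hl⟩ := v
  haveI : Fact l.Prime := ⟨hl⟩
  obtain ⟨r, hr, hrl, hrp, hr1, hres⟩ := exists_aux_prime p l hp hp2 hl
  haveI : Fact r.Prime := ⟨hr⟩
  obtain ⟨χ, hχ⟩ := exists_isAuxChar (p := p) (r := r) hr1
  obtain ⟨ζ', hζ'⟩ := L.c3_exists_primitiveRoot p
  set ζ : Additive Qbarˣ := Additive.ofMul ζ' with hζdef
  have hζ : IsPrimitiveRoot ((Additive.toMul ζ : Qbarˣ) : Qbar) p :=
    IsPrimitiveRoot.coe_units_iff.mpr hζ'
  set X : GQ × GQ → Additive Qbarˣ := vz ζ (x : GQ × GQ → ZMod p) with hX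
  have hXZ : X ∈ Z2 P.levAll unitsRep := vz_mem_Z2 hζ x
  have hχo : P.levAll.IsOpen χ.ker := hχ.isOpen_levAll
  -- `X` splits at all `q ≠ l`
  have hq : ∀ (q : ℕ) [Fact q.Prime], q ≠ l →
      SplitOn P.levAll unitsRep (L.hens q).fixingSubgroup X := by
    intro q _ hql
    by_cases hqS : pPrime q ∈ S
    · exact splitOn_units_of_mu hζ (h (pPrime q) hqS (fun e => hql (congrArg Subtype.val e)))
    · exact splitOn_of_not_mem hpS hζ x q hqS
  -- at `l`
  have hlI : Iq l ≤ χ.ker := hχ.Iq_le (Ne.symm hrl)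
  have hlD : ¬ (L.hens l).fixingSubgroup ≤ χ.ker := hχ.not_le_of_not_isRes (Ne.symm hrl) hres
  have hl0 : SplitOn P.levAll unitsRep ((L.hens l).fixingSubgroup ⊓ χ.ker) X :=
    splitOn_inf_ker χ hχo hlI hlD ⟨X, hXZ⟩ (smul_vz hζ _)
  -- global
  have hloc : ∀ q ∈ insert (pPrime r) S, SplitOn P.levAll unitsRep (Dq q ⊓ χ.ker) X := by
    rintro ⟨q, hqp⟩ -
    haveI : Fact q.Prime := ⟨hqp⟩
    by_cases hql : q = l
    · subst hql
      exact hl0
    · exact (hq q hql).mono inf_le_left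
  have hker : SplitOn P.levAll unitsRep χ.ker X :=
    splitOn_ker hp2 hpS (Finset.subset_insert _ _) hζ x χ
      (hχ.isOpen_levS (Finset.mem_insert_self _ _)) hloc
  obtain ⟨n, hn, hB⟩ := exists_natA_of_splitOn hp2 χ hχo hχ.surj ⟨X, hXZ⟩ hker
  -- `cyc χ n` splits at all `q ≠ l`
  have hcyc : ∀ (q : ℕ) [Fact q.Prime], q ≠ l →
      SplitOn P.levAll unitsRep (L.hens q).fixingSubgroup (cyc χ (natA n)) := by
    intro q _ hql
    have := (hq q hql).sub (splitOn_of_mem_B2 (L.hens q).fixingSubgroup hB)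
    simpa using this
  have hdvd : p ∣ n.factorization l := by
    refine dvd_factorization_of_local hp hr hl (Ne.symm hrl) hn hres ?_ ?_
    · intro q hqp hql hqr hqres
      haveI : Fact q.Prime := ⟨hqp⟩
      exact (splitOn_cyc_natA_iff χ hχo (hχ.Iq_le hqr) (hχ.not_le_of_not_isRes hqr hqres) hn).1
        (hcyc q hql)
    · exact hχ.isRes_of_splitOn hr1 hn (hcyc r hrl)
  have hcl : SplitOn P.levAll unitsRep (L.hens l).fixingSubgroup (cyc χ (natA n)) :=
    (splitOn_cyc_natA_iff χ hχo hlI hlD hn).2 hdvd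
  have hXl : SplitOn P.levAll unitsRep (L.hens l).fixingSubgroup X := by
    have := hcl.add (splitOn_of_mem_B2 (L.hens l).fixingSubgroup hB)
    simpa using this
  exact splitOn_mu_of_units hζ x hXl

/-- **(N2)**: the field `n2` of `(sys S).CoreNumbers (cycloChar p) (dl p S)`, verbatim -/
theorem sys_n2 (hp2 : p ≠ 2) (hpS : pPrime p ∈ S)
    (x : H2 (sys S).L (F.mu (cycloChar p))) (v : (sys S).ι)
    (h : ∀ w, w ≠ v → (PairHom.res (F.mu (cycloChar p)) ((sys S).Dv w).subtype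
      ((sys S).cont_subtype _)).H2map x = 0) :
    (PairHom.res (F.mu (cycloChar p)) ((sys S).Dv v).subtype ((sys S).cont_subtype _)).H2map x
      = 0 := by
  induction x using H2_induction with
  | h x =>
    have key := N2.n2_cocycle hp2 hpS x v.1 (fun w hw hwv =>
      (res_eq_zero_iff x (Dq w) ((sys S).cont_subtype _)).1
        (h ⟨w, hw⟩ (fun e => hwv (congrArg Subtype.val e))))
    exact (res_eq_zero_iff x (Dq v.1) ((sys S).cont_subtype _)).2 key

end Fermat.Agent.S55.G
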