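import Fermat.Agent.S55.G.N2.Defs

/-!
# S55 G-N2-S2: generic lemmas on `SplitOn` for GLOBAL cocycles on `GQ` and arbitrary subgroups
-/

set_option autoImplicit false

namespace Fermat.Agent.S55.G.N2

open ExtCitation Fermat.Agent.S55.L.C0

local notation "Qbar" => AlgebraicClosure ℚ
local notation "GQ" => (AlgebraicClosure ℚ ≃ₐ[ℚ] AlgebraicClosure ℚ)

variable {k : Type*} [CommRing k] {A : Type*} [AddCommGroup A] [Module k A]

/-- **G-N2-S2** (index trick).  PROOF.  On the group `↥W` with levels `Lv.sub W` and module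
`ρ.comp W.subtype`: `y := rs W Y ∈ Z2` (restriction of a cocycle: `PairHom.res`/`Z2` membership by
`mem_Z2_iff`, level by `IsLev₂.precomp (Lv.cont_comap W.subtype)`), it is split on `W₁.subgroupOf W`
(restrict the level cochain), `W₁.subgroupOf W` is open (`L.RelOpen.isOpen_subgroupOf`), so
`(W₁.subgroupOf W).index • [y] = 0` (`index_smul_eq_zero`, discreteness `hρ.comp (Lv.cont_comap _)`);
`p • [y] = 0` as `p • y = 0`.  Bézout (`Nat.Coprime`, `Nat.isCoprime_iff_coprime`/`Int.gcd_eq_gcd_ab`):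
`[y] = 0`, i.e. `rs W Y ∈ B2` (`H2π_eq_zero_iff`); conclude by `splitOn_iff_rs_mem_B2`. -/
theorem splitOn_of_coprime (Lv : Lev GQ) (ρ : Representation k GQ A) (hρ : IsDiscrete Lv ρ)
    (Y : ↥(Z2 Lv ρ)) {p : ℕ} (hpY : ∀ t, p • (Y : GQ × GQ → A) t = 0) {W₁ W : Subgroup GQ}
    (hle : W₁ ≤ W) (ho : L.RelOpen Lv W₁ W) (hc : Nat.Coprime p (W₁.relIndex W))
    (h : SplitOn Lv ρ W₁ (Y : GQ × GQ → A)) : SplitOn Lv ρ W (Y : GQ × GQ → A) := by
  rw [splitOn_iff_rs_mem_B2]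
  have hYmem := (mem_Z2_iff _ _ (Y : GQ × GQ → A)).1 Y.2
  have hy : rs W (Y : GQ × GQ → A) ∈ Z2 (Lv.sub W) (ρ.comp W.subtype) := by
    rw [mem_Z2_iff]
    exact ⟨hYmem.1.precomp (Lv.cont_comap W.subtype), fun g h j => hYmem.2 g h j⟩
  set y : ↥(Z2 (Lv.sub W) (ρ.comp W.subtype)) := ⟨_, hy⟩ with hydef
  have hsplit : SplitOn (Lv.sub W) (ρ.comp W.subtype) (W₁.subgroupOf W) (y : W × W → A) := by
    obtain ⟨c, hc, hcY⟩ := h
    exact ⟨c ∘ W.subtype, hc.precomp (Lv.cont_comap W.subtype),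
      fun u hu u' hu' => hcY u hu u' hu'⟩
  have h1 := index_smul_eq_zero (hρ.comp (Lv.cont_comap W.subtype)) ho.isOpen_subgroupOf y hsplit
  have h2 : p • H2π (Lv.sub W) (ρ.comp W.subtype) y = 0 := by
    have h3 : p • y = 0 := Subtype.ext (funext fun t => hpY _)
    rw [← map_nsmul, h3, map_zero]
  have h3 : H2π (Lv.sub W) (ρ.comp W.subtype) y = 0 := by
    have d1 := addOrderOf_dvd_iff_nsmul_eq_zero.mpr h1
    have d2 := addOrderOf_dvd_iff_nsmul_eq_zero.mpr h2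
    have d3 := Nat.dvd_gcd d2 d1
    have hc' : Nat.gcd p (W₁.subgroupOf W).index = 1 := hc
    rw [hc', Nat.dvd_one] at d3
    exact AddMonoid.addOrderOf_eq_one_iff.mp d3
  exact (H2π_eq_zero_iff _ _ y).1 h3

/-- Hilbert 90 on the ambient group (`h90_all (MonoidHom.id GQ) V`; a `P.levAll`-level cochain is a
`(P.levAll.comap id)`-level cochain since `U.comap id = U`). -/
theorem h90_amb (V : Subgroup GQ) : H1VanishOn P.levAll unitsRep V := by
  intro z hz hcoc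
  obtain ⟨U, hU, hzU⟩ := hz
  exact h90_all (MonoidHom.id GQ) V z ⟨U.comap (MonoidHom.id GQ), ⟨U, hU, rfl⟩, hzU⟩ hcoc

end Fermat.Agent.S55.G.N2
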