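import Fermat.Agent.S55.L.C0.CycMain

/-!
# S55 G-UCV-1: two generic lemmas: inflation is injective on `H²` (cochain form); `cyc χ m` in `ℤ`
-/

set_option autoImplicit false

namespace Fermat.Agent.S55.G.N2

open Fermat.Agent.S55.L.C0

variable {k : Type*} [CommRing k] {G : Type} [Group G] {Lv : Lev G}
variable {A : Type*} [AddCommGroup A] [Module k A] {ρ : Representation k G A}

/-- **G-UCV-1a**.  `Y` a 2-cocycle inflated from `G / J` with values in `A^J`, `H¹(J, A) = 0`.  If `Y` is a coboundary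
then it is the coboundary of a cochain inflated from `G / J` with values in `A^J`.
PROOF.  `Y = d1 h₀`, `h₀` level (`mem_B2_iff`).  `c₀ := Y (1, 1)`.  Cocycle identity: `Y (g, 1) = ρ g c₀`, `Y (1, g) = c₀`.
`h₁ := h₀ - c₀` (constant).  For `j j' ∈ J`: `Y (j, j') = Y (1, 1) = c₀` and `ρ j c₀ = c₀`, so
`ρ j (h₁ j') - h₁ (j j') + h₁ j = 0`: `h₁` is a cocycle on `J`; `hH1` gives `m` with `h₁ j = ρ j m - m` on `J`.
`h₂ g := h₁ g - (ρ g m - m)` vanishes on `J` and `Y (g, g') - ρ g c₀ = d1 h₂ (g, g')`.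
`Y (g, j) - ρ g c₀ = Y (g, 1) - ρ g c₀ = 0` gives `h₂ (g j) = h₂ g`; `Y (j, g) - ρ j c₀ = Y (1, g) - c₀ = 0` gives
`ρ j (h₂ g) = h₂ (j g) = h₂ (g (g⁻¹ j g)) = h₂ g`.  Take `h := h₂ + c₀`:  `d1 (const c₀) (g, g') = ρ g c₀`. -/
theorem exists_inflated_primitive {J : Subgroup G} [J.Normal] (hH1 : H1VanishOn Lv ρ J)
    (Y : ↥(Z2 Lv ρ))
    (hfix : ∀ t, ∀ j ∈ J, ρ j ((Y : G × G → A) t) = (Y : G × G → A) t)
    (hinv : ∀ g h, ∀ j ∈ J, ∀ j' ∈ J, (Y : G × G → A) (g * j, h * j') = (Y : G × G → A) (g, h))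
    (hB : (Y : G × G → A) ∈ B2 Lv ρ) :
    ∃ h : G → A, (∀ g, ∀ j ∈ J, h (g * j) = h g) ∧ (∀ g, ∀ j ∈ J, ρ j (h g) = h g) ∧
      ∀ g g', (Y : G × G → A) (g, g') = ρ g (h g') - h (g * g') + h g := by
  obtain ⟨h₀, hlev, hd⟩ := (mem_B2_iff Lv ρ _).1 hB
  set c₀ : A := (Y : G × G → A) (1, 1) with hc₀
  -- normalisation identities
  have hY1 : ∀ g, (Y : G × G → A) (g, 1) = ρ g c₀ := by
    intro g
    have := Z2.cocycle Y g 1 1
    rw [mul_one, mul_one] at this
    exact add_right_cancel this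
  have hY2 : ∀ g, (Y : G × G → A) (1, g) = c₀ := by
    intro g
    have := Z2.cocycle Y 1 1 g
    rw [mul_one, one_mul, map_one, Module.End.one_apply] at this
    exact (add_left_cancel this).symm ▸ rfl
  have hfc : ∀ j ∈ J, ρ j c₀ = c₀ := fun j hj => hfix _ j hj
  have hYgj : ∀ g, ∀ j ∈ J, (Y : G × G → A) (g, j) = ρ g c₀ := by
    intro g j hj
    have := hinv g 1 1 J.one_mem j hj
    rw [mul_one, one_mul] at this
    rw [this, hY1]
  have hYjg : ∀ g, ∀ j ∈ J, (Y : G × G → A) (j, g) = c₀ := by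
    intro g j hj
    have := hinv 1 g j hj 1 J.one_mem
    rw [mul_one, one_mul] at this
    rw [this, hY2]
  -- `h₀ - c₀` is a cocycle on `J`
  obtain ⟨m, hm⟩ := hH1 (fun g => h₀ g - c₀) (hlev.comp (· - c₀)) (by
    intro v hv w hw
    have h1 := hd v w
    rw [hYjg w v hv] at h1
    show h₀ (v * w) - c₀ = ρ v (h₀ w - c₀) + (h₀ v - c₀)
    rw [map_sub, hfc v hv]
    have h2 : h₀ (v * w) = ρ v (h₀ w) + h₀ v - c₀ := by
      rw [h1]; abel
    rw [h2]; abel)
  have hhd : ∀ g g', (Y : G × G → A) (g, g') = ρ g (h₀ g' - (ρ g' m - m))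
      - (h₀ (g * g') - (ρ (g * g') m - m)) + (h₀ g - (ρ g m - m)) := by
    intro g g'
    rw [hd g g', map_sub, map_sub, map_mul, Module.End.mul_apply]
    abel
  have hJ : ∀ j ∈ J, h₀ j - (ρ j m - m) = c₀ := by
    intro j hj
    have := hm j hj
    rw [← this]; abel
  have hright : ∀ g, ∀ j ∈ J, h₀ (g * j) - (ρ (g * j) m - m) = h₀ g - (ρ g m - m) := by
    intro g j hj
    have h1 := hhd g j
    rw [hYgj g j hj, hJ j hj] at h1
    have h2 : ρ g c₀ = ρ g c₀ - ((h₀ (g * j) - (ρ (g * j) m - m)) - (h₀ g - (ρ g m - m))) := by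
      rw [sub_sub_eq_add_sub, add_sub_right_comm]
      exact h1
    exact sub_eq_zero.1 (sub_eq_self.1 h2.symm)
  refine ⟨fun g => h₀ g - (ρ g m - m), hright, fun g j hj => ?_, hhd⟩
  have h1 := hhd j g
  rw [hYjg g j hj, hJ j hj] at h1
  have h2 : j * g = g * (g⁻¹ * j * g) := by group
  have h3 : g⁻¹ * j * g ∈ J := by
    have := (inferInstance : J.Normal).conj_mem j hj g⁻¹
    rwa [inv_inv] at this
  rw [h2, hright g _ h3] at h1
  have h4 : ρ j (h₀ g - (ρ g m - m)) - (h₀ g - (ρ g m - m)) = 0 := by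
    have := h1.symm
    rwa [add_eq_right] at this
  exact sub_eq_zero.1 h4

/-- **G-UCV-1b**.  PROOF.  (i) on `ker χ` the carry vanishes, so `f (v w) = f v + f w`; `f` has finitely many values
(it factors through the finite set `G ⧸ J`), so `f = 0` on `ker χ` (if `f v ≠ 0` the `f (v ^ k) = k * f v` are pairwise
distinct).  (ii) sum the identity over `(τ ^ i, τ)`, `i < p`: `lval χ (τ ^ i) = i % p` (`CycZero_lval_pow`), the carry is `1`
for `i = p - 1` and `0` otherwise; the right side telescopes to `p * f τ - f (τ ^ p) + f 1 = p * f τ`. -/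
theorem dvd_of_carry {p : ℕ} [Fact p.Prime] (χ : G →* Multiplicative (ZMod p)) {τ : G}
    (hτ : χ τ = Multiplicative.ofAdd 1) {J : Subgroup G} [J.FiniteIndex] (f : G → ℤ)
    (hf : ∀ g, ∀ j ∈ J, f (g * j) = f g) (m : ℤ)
    (h : ∀ g g', (((lval χ g + lval χ g') / p : ℕ) : ℤ) * m = f g' - f (g * g') + f g) :
    (p : ℤ) ∣ m := by
  have hp : p.Prime := Fact.out
  have hp1 : 1 < p := hp.one_lt
  -- additivity on `ker χ`
  have hadd : ∀ v ∈ χ.ker, ∀ w ∈ χ.ker, f (v * w) = f v + f w := by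
    intro v hv w hw
    have h1 := h v w
    rw [(lval_eq_zero_iff χ v).2 hv, (lval_eq_zero_iff χ w).2 hw, add_zero, Nat.zero_div,
      Nat.cast_zero, zero_mul] at h1
    linarith
  have hf1 : f 1 = 0 := by
    have := hadd 1 χ.ker.one_mem 1 χ.ker.one_mem
    rw [mul_one] at this
    linarith
  have hpow : ∀ v ∈ χ.ker, ∀ k : ℕ, f (v ^ k) = k * f v := by
    intro v hv k
    induction k with
    | zero => rw [pow_zero, hf1]; simp
    | succ k ih =>
      rw [pow_succ, hadd _ (χ.ker.pow_mem hv k) v hv, ih]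
      push_cast; ring
  have hker : ∀ v ∈ χ.ker, f v = 0 := by
    intro v hv
    obtain ⟨n, hn, -, hnJ⟩ := Subgroup.exists_pow_mem_of_index_ne_zero
      (Subgroup.FiniteIndex.index_ne_zero (H := J)) v
    have h1 := hf 1 _ hnJ
    rw [one_mul, hf1, hpow v hv] at h1
    have hn' : (n : ℤ) ≠ 0 := by exact_mod_cast hn.ne'
    exact (mul_eq_zero.1 h1).resolve_left hn'
  have hlτ : lval χ τ = 1 := by
    have := CycZero_lval_pow hτ 1
    rwa [pow_one, Nat.mod_eq_of_lt hp1] at this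
  -- `f (τ ^ i) = i * f τ` for `i < p`
  have hlin : ∀ i : ℕ, i < p → f (τ ^ i) = i * f τ := by
    intro i
    induction i with
    | zero => intro _; rw [pow_zero, hf1]; simp
    | succ i ih =>
      intro hi
      have h1 := h (τ ^ i) τ
      rw [CycZero_lval_pow hτ, hlτ, Nat.mod_eq_of_lt (by omega), Nat.div_eq_of_lt hi,
        Nat.cast_zero, zero_mul, ← pow_succ, ih (by omega)] at h1
      push_cast
      linarith
  have h1 := h (τ ^ (p - 1)) τ
  rw [CycZero_lval_pow hτ, hlτ, Nat.mod_eq_of_lt (by omega), ← pow_succ,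
    show p - 1 + 1 = p by omega, Nat.div_self hp.pos, Nat.cast_one, one_mul,
    hker _ (CycZero_pow_n_mem hτ), hlin (p - 1) (by omega)] at h1
  refine ⟨f τ, ?_⟩
  rw [h1]
  have h2 : ((p - 1 : ℕ) : ℤ) = (p : ℤ) - 1 := by
    rw [Nat.cast_sub hp.one_le, Nat.cast_one]
  rw [h2]
  ring

end Fermat.Agent.S55.G.N2
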