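import Fermat.Agent.S55.G.N2.LcfAbs
import Fermat.Agent.S55.G.N2.UcvInf

/-!
# S55 G-UCV-3: the valuation trick (abstract form)
-/

set_option autoImplicit false

namespace Fermat.Agent.S55.G.N2

open Fermat.Agent.S55.L Fermat.Agent.S55.L.C0

variable {Γ : Type} [Group Γ] {A : Type} [AddCommGroup A] {Lv : Lev Γ}
  {ρ : Representation ℤ Γ A} {p : ℕ}

/-- **G-UCV-3**.  `X` is inflated from `U / J`, `J` unramified, with values in `units ∩ A^J`, and `X ~ cyc χ α`, `χ` unramified.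
Then `p ∣ ord α`.
PROOF.  `W := V ⊓ J`.  `UnrA ρ C.units W U`: `C.unr_inf hU hV.le hV.relOpen hJU hJo hurV : UnrA .. (V ⊓ J) J`, composed with `hur`
(`UnrA` is an implication between `IsUnifA`'s).  So `π` is a uniformiser of `W`.  `C.mem W` (`C.mem_of_relOpen`; `RelOpen Lv W U`:
intersect the two levels, `Lv.directed`).  `J' := W.subgroupOf U` is normal in `↥U`, of finite index, `J' ≤ χ.ker`.
`Y := X - cyc χ α ∈ Z2` (`cyc_mem_Z2`, kernel open), invariant under `J'` (`hinv`, `lval_mul_of_mem_ker`), values fixed by `J'`.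
`H1VanishOn (Lv.sub U) (rs ρ U) J'` from `C.h90` for `W` (`h1VanishOn_range_iff` with `Subgroup.inclusion`, as in `L/C1aKer.lean`).
`exists_inflated_primitive` gives `h : U → A`, `J'`-invariant, values in `AU ρ W`, `Y = d1 h`.
For each `g` choose `f g : ℤ` with `h g - f g • π ∈ units` (`IsUnifA.span` for `W`); `f (g j) = f g` (same value of `h`; or uniqueness by
`free`).  Modulo `units` (`C.units_stable hU`, `ρ g π = π`): `Y (g, g') ≡ - carry * m • π` and
`d1 h (g, g') ≡ (f g' - f (g g') + f g) • π`; `free` gives `carry * (-m) = f g' - f (g g') + f g`.  `dvd_of_carry`. -/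
theorem dvd_ord_of_unram [Fact p.Prime] (C : LCF Lv ρ p) {U J V : Subgroup Γ} (hU : C.mem U)
    (hJU : J ≤ U) (hJo : RelOpen Lv J U) (hJn : (J.subgroupOf U).Normal)
    (hur : UnrA ρ C.units J U) (X : ↥(Z2 (Lv.sub U) (rs ρ U)))
    (hval : ∀ t, (X : U × U → A) t ∈ C.units) (hfix : ∀ t, (X : U × U → A) t ∈ AU ρ J)
    (hinv : ∀ g h j j' : U, (j : Γ) ∈ J → (j' : Γ) ∈ J →
      (X : U × U → A) (g * j, h * j') = (X : U × U → A) (g, h))
    (hV : NormalIdx Lv p V U) (hurV : UnrA ρ C.units V U)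
    {χ : U →* Multiplicative (ZMod p)} (hχ : χ.ker = V.subgroupOf U) {τ : U}
    (hτ : χ τ = Multiplicative.ofAdd 1) {α : A} (hα : α ∈ AU ρ U)
    (hB : (X : U × U → A) - cyc χ α ∈ B2 (Lv.sub U) (rs ρ U))
    {π : A} (hπ : IsUnifA ρ C.units U π) {m : ℤ} (hm : α - m • π ∈ C.units) : (p : ℤ) ∣ m := by
  classical
  have hWU : V ⊓ J ≤ U := inf_le_left.trans hV.le
  have hWo : RelOpen Lv (V ⊓ J) U := hV.relOpen.inf hJo
  have hπW : IsUnifA ρ C.units (V ⊓ J) π :=
    (C.unr_inf hU hV.le hV.relOpen hJU hJo hurV) π (hur π hπ)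
  have hn : ((V ⊓ J).subgroupOf U).Normal :=
    ⟨fun n hn g => ⟨hV.normal.conj_mem n hn.1 g, hJn.conj_mem n hn.2 g⟩⟩
  have hfi : ((V ⊓ J).subgroupOf U).FiniteIndex := hWo.isOpen_subgroupOf.finiteIndex
  have hχo : (Lv.sub U).IsOpen χ.ker := hχ ▸ hV.isOpen_subgroupOf
  have hαU : ∀ g : U, rs ρ U g α = α := fun g => hα g.1 g.2
  have hker : ∀ j : U, j ∈ (V ⊓ J).subgroupOf U → j ∈ χ.ker := fun j hj => by
    rw [hχ]; exact hj.1
  have hY : (X : U × U → A) - cyc χ α ∈ Z2 (Lv.sub U) (rs ρ U) :=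
    Submodule.sub_mem _ X.2 (cyc_mem_Z2 (Lv.sub U) (rs ρ U) χ hχo hαU)
  obtain ⟨h, h1, h2, h3⟩ := exists_inflated_primitive (J := (V ⊓ J).subgroupOf U)
    (C.h1VanishOn hU hWU hWo) ⟨_, hY⟩
    (fun t j hj => by
      show rs ρ U j ((X : U × U → A) t - cyc χ α t) = (X : U × U → A) t - cyc χ α t
      obtain ⟨g, g'⟩ := t
      rw [map_sub, cyc_apply, map_nsmul, hαU j]
      congr 1
      exact hfix (g, g') j.1 hj.2)
    (fun g g' j hj j' hj' => by
      show (X : U × U → A) (g * j, g' * j') - cyc χ α (g * j, g' * j') =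
        (X : U × U → A) (g, g') - cyc χ α (g, g')
      rw [hinv g g' j j' hj.2 hj'.2, cyc_apply, cyc_apply, lval_mul_of_mem_ker χ g (hker j hj),
        lval_mul_of_mem_ker χ g' (hker j' hj')])
    hB
  have hmem : ∀ g : U, h g ∈ AU ρ (V ⊓ J) := fun g w hw => h2 g ⟨w, hWU hw⟩ hw
  choose f hf using fun g : U => hπW.span (h g) (hmem g)
  have hfinv : ∀ g : U, ∀ j ∈ (V ⊓ J).subgroupOf U, f (g * j) = f g := by
    intro g j hj
    have e1 := hf (g * j)
    rw [h1 g j hj] at e1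
    have e2 := C.units.sub_mem (hf g) e1
    have e3 : h g - f g • π - (h g - f (g * j) • π) = (f (g * j) - f g) • π := by
      rw [sub_smul]; abel
    rw [e3] at e2
    have := hπ.free _ e2
    omega
  have hmain : ∀ g g' : U, (((lval χ g + lval χ g') / p : ℕ) : ℤ) * (-m) =
      f g' - f (g * g') + f g := by
    intro g g'
    set c : ℕ := (lval χ g + lval χ g') / p with hc
    have e0 : (X : U × U → A) (g, g') - c • α = ρ g.1 (h g') - h (g * g') + h g := h3 g g'
    have u1 := hval (g, g')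
    have u2 := C.units.nsmul_mem hm c
    have u3 := C.units_stable hU g.1 g.2 _ (hf g')
    rw [map_sub, map_zsmul, hπ.mem g.1 g.2] at u3
    have u4 := hf (g * g')
    have u5 := hf g
    have hu := C.units.sub_mem (C.units.add_mem (C.units.sub_mem (C.units.sub_mem u1 u2) u3) u4) u5
    have e1 : (X : U × U → A) (g, g') = ρ g.1 (h g') - h (g * g') + h g + c • α := by
      rw [← e0]; abel
    have e2 : (X : U × U → A) (g, g') - c • (α - m • π) - (ρ g.1 (h g') - f g' • π) +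
        (h (g * g') - f (g * g') • π) - (h g - f g • π) =
        (f g' - f (g * g') + f g + (c : ℤ) * m) • π := by
      rw [e1, add_smul, add_smul, sub_smul, mul_smul, natCast_zsmul, smul_sub]
      abel
    rw [e2] at hu
    have := hπ.free _ hu
    linarith
  have := dvd_of_carry χ hτ (J := (V ⊓ J).subgroupOf U) f hfinv (-m) hmain
  exact (dvd_neg).1 this

end Fermat.Agent.S55.G.N2
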