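import Fermat.Agent.S55.G.N2.UcvAbsA
import Fermat.Agent.S55.G.N2.UcvAbsB

/-!
# S55 G-UCV-4: unramified classes with unit values vanish (abstract form)
-/

set_option autoImplicit false

namespace Fermat.Agent.S55.G.N2

open Fermat.Agent.S55.L Fermat.Agent.S55.L.C0

variable {Γ : Type} [Group Γ] {A : Type} [AddCommGroup A] {Lv : Lev Γ}
  {ρ : Representation ℤ Γ A} {p : ℕ}

/-- **G-UCV-4**.  PROOF.  `exists_cyc_unr` gives `V χ τ α`; `π` a uniformiser of `U` (`C.exists_unif hU`), `α - m • π ∈ units`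
(`hπ.span`); `dvd_ord_of_unram` gives `p ∣ m`; `exists_norm_of_dvd` (`s := τ`, `τ ∉ V` since `χ τ ≠ 1`) gives `α = Nm ρ τ p b`,
`b ∈ AU ρ V`; `cyc_mem_B2_of_norm` on `↥U` (`Nm_apply`; `rs ρ U (τ ^ i) = ρ ((τ : Γ) ^ i)`) gives `cyc χ α ∈ B2`, so `X ∈ B2`
(`Submodule.add_mem`), `H2π_eq_zero_iff`. -/
theorem unram_class_eq_zero [Fact p.Prime] (C : LCF Lv ρ p) {U J : Subgroup Γ} (hU : C.mem U)
    (hJU : J ≤ U) (hJo : RelOpen Lv J U) (hJn : (J.subgroupOf U).Normal)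
    (hur : UnrA ρ C.units J U) (X : ↥(Z2 (Lv.sub U) (rs ρ U)))
    (hval : ∀ t, (X : U × U → A) t ∈ C.units) (hfix : ∀ t, (X : U × U → A) t ∈ AU ρ J)
    (hinv : ∀ g h j j' : U, (j : Γ) ∈ J → (j' : Γ) ∈ J →
      (X : U × U → A) (g * j, h * j') = (X : U × U → A) (g, h))
    (hpX : p • H2π (Lv.sub U) (rs ρ U) X = 0) : H2π (Lv.sub U) (rs ρ U) X = 0 := by
  obtain ⟨V, χ, τ, α, hV, hurV, hχ, hτ, hα, hB⟩ := exists_cyc_unr C hU X hpX
  obtain ⟨π, hπ⟩ := C.exists_unif hU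
  obtain ⟨m, hm⟩ := hπ.span α hα
  have hdvd : (p : ℤ) ∣ m :=
    dvd_ord_of_unram C hU hJU hJo hJn hur X hval hfix hinv hV hurV hχ hτ hα hB hπ hm
  have hτV : (τ : Γ) ∉ V := by
    intro h
    have h1 : τ ∈ χ.ker := by rw [hχ]; exact Subgroup.mem_subgroupOf.2 h
    rw [MonoidHom.mem_ker, hτ] at h1
    have h2 : (1 : ZMod p) = 0 := Multiplicative.ofAdd.injective h1
    exact one_ne_zero h2
  obtain ⟨b, hb, hNb⟩ := exists_norm_of_dvd C hU hV hurV hπ τ.2 hτV hα hm hdvd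
  have hopen : (Lv.sub U).IsOpen χ.ker := by
    rw [hχ]; exact hV.relOpen.isOpen_subgroupOf
  have hcyc : cyc χ α ∈ B2 (Lv.sub U) (rs ρ U) := by
    have h := cyc_mem_B2_of_norm (ρ := rs ρ U) hopen hτ b (fun v hv => by
      rw [hχ] at hv
      exact hb (v : Γ) (Subgroup.mem_subgroupOf.1 hv))
    have e : (∑ i ∈ Finset.range p, rs ρ U (τ ^ i) b) = α := by
      rw [← hNb, Nm_apply]
      rfl
    rwa [e] at h
  rw [H2π_eq_zero_iff]
  have := Submodule.add_mem _ hB hcyc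
  rwa [sub_add_cancel] at this

end Fermat.Agent.S55.G.N2
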