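import Fermat.Agent.S55.G.N2.LcfAbs

/-!
# S55 G-UCV-2: a `p`-torsion class of `H²(U, A)` is `cyc χ α`, `χ` the unramified character of degree `p`
-/

set_option autoImplicit false

namespace Fermat.Agent.S55.G.N2

open Fermat.Agent.S55.L Fermat.Agent.S55.L.C0

variable {Γ : Type} [Group Γ] {A : Type} [AddCommGroup A] {Lv : Lev Γ}
  {ρ : Representation ℤ Γ A} {p : ℕ}

/-- **G-UCV-2**.  PROOF.  `C.exists_unr hU` gives `χ₂ : U → ℤ/p²`; `V := midSub χ₂`, `hV := normalIdx_midSub χ₂ hs ho`,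
`UnrA ρ C.units V U` (as in the proof of `LCF.card_torsion` in `L/C1LCF.lean`).
`C.torsion_dies hU hV hur (H2π X) hpX : rres2 .. = 0`.  `hV.exists_char` gives `χ` onto with kernel `V.subgroupOf U`; pick `τ`.
`rres2 = 0 ⇒ SplitOn (Lv.sub U) (rs ρ U) (V.subgroupOf U) X` and `C.h90` for `V` `⇒ H1VanishOn (Lv.sub U) (rs ρ U) (V.subgroupOf U)`:
see the section "Tools" of the header of `L/C1Defs.lean` (`rres2_eq_res`, `res_H2π_eq_zero_iff` with
`f = Subgroup.inclusion h`, `range_inclusion`, `Lev.induced_inclusion`, `RelOpen.isOpen_subgroupOf`, `h1VanishOn_range_iff`);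
the same translation is done in `L/C1aKer.lean`.  Then `exists_cyc_of_splitOn (isDiscrete_rs C.discrete U)`. -/
theorem exists_cyc_unr [Fact p.Prime] (C : LCF Lv ρ p) {U : Subgroup Γ} (hU : C.mem U)
    (X : ↥(Z2 (Lv.sub U) (rs ρ U))) (hpX : p • H2π (Lv.sub U) (rs ρ U) X = 0) :
    ∃ (V : Subgroup Γ) (χ : U →* Multiplicative (ZMod p)) (τ : U) (α : A),
      NormalIdx Lv p V U ∧ UnrA ρ C.units V U ∧ χ.ker = V.subgroupOf U ∧
      χ τ = Multiplicative.ofAdd 1 ∧ α ∈ AU ρ U ∧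
      (X : U × U → A) - cyc χ α ∈ B2 (Lv.sub U) (rs ρ U) := by
  sorry

end Fermat.Agent.S55.G.N2
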